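import Fermat.Agent.S23.Defs

set_option autoImplicit false

/-!
# S20 (genus formula): basic definitions

Vocabulary for the "frame" proof of `dim S₂(Γ₀(N)) = genusFormula N`.

* `Q N` : the coset space `SL(2,ℤ) ⧸ Γ₀(N)` (left cosets), with `SL(2,ℤ)` acting on the left.
* `vec k f z : Q N → ℂ` : the vector of all conjugates `(f ∣[k] g⁻¹) z`, `g` running over coset
  representatives.
* `perm γ` : the permutation matrix of `γ` on `Q N → ℂ`, `(perm γ *ᵥ v) q = v (γ⁻¹ • q)`.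
* `Frame N` : a `Q N`-indexed family of modular forms for `Γ₀(N)` with weights; `Frame.Φ` is its
  matrix of conjugates.
-/

open UpperHalfPlane Filter
open scoped MatrixGroups ModularForm Manifold Real Topology Matrix

namespace Fermat.Agent.S20

open Fermat.Agent.S23

/-- The coset space `SL(2,ℤ) ⧸ Γ₀(N)` (left cosets `g Γ₀(N)`). -/
abbrev Q (N : ℕ) : Type := SL(2, ℤ) ⧸ CongruenceSubgroup.Gamma0 N

noncomputable instance instFintypeQ (N : ℕ) [NeZero N] : Fintype (Q N) := Fintype.ofFinite _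

noncomputable instance instDecidableEqQ (N : ℕ) : DecidableEq (Q N) := Classical.decEq _

/-- Weight `k` slash invariance under `Γ₀(N)`. -/
def SlInv (N : ℕ) (k : ℤ) (f : ℍ → ℂ) : Prop :=
  ∀ γ ∈ CongruenceSubgroup.Gamma0 N, f ∣[k] γ = f

/-- The vector of conjugates of `f`: `vec k f z q = (f ∣[k] g⁻¹) z`, `g` the chosen representative
of the coset `q`. -/
noncomputable def vec {N : ℕ} (k : ℤ) (f : ℍ → ℂ) (z : ℍ) (q : Q N) : ℂ :=
  (f ∣[k] (Quotient.out q : SL(2, ℤ))⁻¹) z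

/-- The permutation matrix of `γ` acting on `Q N → ℂ`: `(perm γ *ᵥ v) q = v (γ⁻¹ • q)`. -/
noncomputable def perm {N : ℕ} (γ : SL(2, ℤ)) : Matrix (Q N) (Q N) ℂ :=
  Matrix.of fun q q' => if q' = γ⁻¹ • q then 1 else 0

/-- A frame: a family of modular forms for `Γ₀(N)`, indexed by the coset space. -/
structure Frame (N : ℕ) where
  /-- the weights -/
  k : Q N → ℤ
  /-- the forms -/
  F : Q N → ℍ → ℂ
  isMF : ∀ j, IsMF (G0 N) (k j) (F j)

/-- The matrix of conjugates of a frame: column `j` is `vec (k j) (F j) z`. -/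
noncomputable def Frame.Φ {N : ℕ} (fr : Frame N) (z : ℍ) : Matrix (Q N) (Q N) ℂ :=
  Matrix.of fun q j => vec (fr.k j) (fr.F j) z q

/-- The primitive `N`-th root of unity `e^{2πi/N}`. -/
noncomputable def zeta (N : ℕ) : ℂ := Complex.exp (2 * π * Complex.I / N)

/-- Spectral projection of `perm T` for the eigenvalue `zeta N ^ m`. -/
noncomputable def proj (N : ℕ) [NeZero N] (m : ℕ) : Matrix (Q N) (Q N) ℂ :=
  (N : ℂ)⁻¹ • ∑ j ∈ Finset.range N, (zeta N ^ (j * m))⁻¹ • perm (ModularGroup.T ^ j)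

/-- The normalising matrix at `i∞`: `∑_{m<N} e^{-2πimz/N} proj m`. -/
noncomputable def cuspE (N : ℕ) [NeZero N] (z : ℍ) : Matrix (Q N) (Q N) ℂ :=
  ∑ m ∈ Finset.range N, Complex.exp (-(2 * π * Complex.I * m * z / N)) • proj N m

/-- A frame is *good* if its matrix of conjugates is invertible at some point. -/
def Frame.Good {N : ℕ} [NeZero N] (fr : Frame N) : Prop := ∃ z, (fr.Φ z).det ≠ 0

/-- A frame is *perfect* if its matrix of conjugates is invertible at every point of `ℍ` and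
"at `i∞`" (after normalisation by `cuspE`). -/
def Frame.Perfect {N : ℕ} [NeZero N] (fr : Frame N) : Prop :=
  (∀ z, (fr.Φ z).det ≠ 0) ∧
    ∃ L : Matrix (Q N) (Q N) ℂ, L.det ≠ 0 ∧
      Tendsto (fun z : ℍ => cuspE N z * fr.Φ z) atImInfty (𝓝 L)

/-- The total weight of a frame. -/
noncomputable def Frame.weight {N : ℕ} [NeZero N] (fr : Frame N) : ℤ := ∑ j, fr.k j

section basic

variable {N : ℕ} {k : ℤ} {f : ℍ → ℂ}

lemma slInv_of_isMF (hf : IsMF (G0 N) k f) : SlInv N k f := by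
  obtain ⟨F, rfl⟩ := hf
  intro γ hγ
  exact F.slash_action_eq' _ ⟨γ, hγ, rfl⟩

/-- Conjugating by the chosen representative of the coset of `g` is conjugating by `g`. -/
lemma slash_out_inv (hf : SlInv N k f) (g : SL(2, ℤ)) :
    f ∣[k] (Quotient.out (QuotientGroup.mk g : Q N) : SL(2, ℤ))⁻¹ = f ∣[k] g⁻¹ := by
  set g' : SL(2, ℤ) := Quotient.out (QuotientGroup.mk g : Q N) with hg'
  have h1 : (QuotientGroup.mk g' : Q N) = QuotientGroup.mk g := QuotientGroup.out_eq' _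
  have h2 : g'⁻¹ * g ∈ CongruenceSubgroup.Gamma0 N := QuotientGroup.eq.mp h1
  have h3 : g'⁻¹ = (g'⁻¹ * g) * g⁻¹ := by group
  rw [h3, SlashAction.slash_mul, hf _ h2]

lemma vec_mk (hf : SlInv N k f) (g : SL(2, ℤ)) (z : ℍ) :
    vec k f z (QuotientGroup.mk g : Q N) = (f ∣[k] g⁻¹) z := by
  unfold vec
  rw [slash_out_inv hf]

lemma vec_one (hf : SlInv N k f) (z : ℍ) :
    vec k f z (QuotientGroup.mk 1 : Q N) = f z := by
  rw [vec_mk hf]
  simp

/-- The transformation law of the vector of conjugates. -/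
lemma vec_smul (hf : SlInv N k f) (γ : SL(2, ℤ)) (z : ℍ) (q : Q N) :
    vec k f (γ • z) q = denom γ z ^ k * vec k f z (γ⁻¹ • q) := by
  obtain ⟨g, rfl⟩ := QuotientGroup.mk_surjective q
  have h1 : (γ⁻¹ • (QuotientGroup.mk g : Q N)) = QuotientGroup.mk (γ⁻¹ * g) := rfl
  rw [h1, vec_mk hf, vec_mk hf]
  have h2 : (γ⁻¹ * g)⁻¹ = g⁻¹ * γ := by group
  rw [h2, SlashAction.slash_mul, ModularForm.SL_slash_apply (f := f ∣[k] g⁻¹) (k := k) γ z,
    mul_comm, mul_assoc, ← zpow_add₀ (denom_ne_zero _ _)]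
  simp

lemma perm_mulVec (γ : SL(2, ℤ)) [NeZero N] (v : Q N → ℂ) (q : Q N) :
    (perm γ *ᵥ v) q = v (γ⁻¹ • q) := by
  simp [perm, Matrix.mulVec, dotProduct]

lemma vec_smul' [NeZero N] (hf : SlInv N k f) (γ : SL(2, ℤ)) (z : ℍ) :
    (vec k f (γ • z) : Q N → ℂ) = denom γ z ^ k • (perm γ *ᵥ vec k f z) := by
  funext q
  rw [vec_smul hf, Pi.smul_apply, perm_mulVec, smul_eq_mul]

lemma vec_mul {k₁ k₂ : ℤ} (h f : ℍ → ℂ) (hh : ∀ γ : SL(2, ℤ), h ∣[k₁] γ = h) (z : ℍ) (q : Q N) :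
    vec (k₁ + k₂) (h * f) z q = h z * vec k₂ f z q := by
  unfold vec
  rw [ModularForm.mul_slash_SL2, hh]
  rfl

lemma vec_add (f g : ℍ → ℂ) (z : ℍ) (q : Q N) :
    vec k (f + g) z q = vec k f z q + vec k g z q := by
  unfold vec
  rw [SlashAction.add_slash]
  rfl

lemma vec_smul_const (c : ℂ) (f : ℍ → ℂ) (z : ℍ) (q : Q N) :
    vec k (c • f) z q = c * vec k f z q := by
  unfold vec
  rw [ModularForm.SL_smul_slash]
  rfl

lemma vec_zero (z : ℍ) (q : Q N) : vec k (0 : ℍ → ℂ) z q = 0 := by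
  unfold vec
  rw [SlashAction.zero_slash]
  rfl

lemma vec_sum {ι : Type*} (s : Finset ι) (F : ι → ℍ → ℂ) (z : ℍ) (q : Q N) :
    vec k (∑ i ∈ s, F i) z q = ∑ i ∈ s, vec k (F i) z q := by
  unfold vec
  rw [SlashAction.sum_slash, Finset.sum_apply]

/-- Each conjugate of a holomorphic function is holomorphic. -/
lemma mdiff_vec (hf : MDiff f) (q : Q N) : MDiff (fun z => vec k f z q) :=
  hf.slash k _

/-- Each conjugate of a modular form for `Γ₀(N)` is bounded at `i∞`. -/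
lemma isBoundedAtImInfty_slash [NeZero N] (hf : IsMF (G0 N) k f) (g : SL(2, ℤ)) :
    IsBoundedAtImInfty (f ∣[k] g) := by
  obtain ⟨F, rfl⟩ := hf
  have hc : IsCusp (Matrix.SpecialLinearGroup.mapGL ℝ g • OnePoint.infty) (G0 N) := by
    rw [Subgroup.IsArithmetic.isCusp_iff_isCusp_SL2Z, isCusp_SL2Z_iff']
    exact ⟨g, rfl⟩
  have h := F.bdd_at_cusps' hc
  exact (OnePoint.isBoundedAt_iff rfl).mp h

lemma isBoundedAtImInfty_vec [NeZero N] (hf : IsMF (G0 N) k f) (q : Q N) :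
    IsBoundedAtImInfty (fun z => vec k f z q) :=
  isBoundedAtImInfty_slash hf _

/-- Each conjugate of a cusp form for `Γ₀(N)` vanishes at `i∞`. -/
lemma isZeroAtImInfty_slash [NeZero N] (hf : IsCF (G0 N) k f) (g : SL(2, ℤ)) :
    IsZeroAtImInfty (f ∣[k] g) := by
  obtain ⟨F, rfl⟩ := hf
  have hc : IsCusp (Matrix.SpecialLinearGroup.mapGL ℝ g • OnePoint.infty) (G0 N) := by
    rw [Subgroup.IsArithmetic.isCusp_iff_isCusp_SL2Z, isCusp_SL2Z_iff']
    exact ⟨g, rfl⟩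
  have h := F.zero_at_cusps' hc
  exact (OnePoint.isZeroAt_iff rfl).mp h

end basic

section constructors

variable {N : ℕ} {k : ℤ} {f : ℍ → ℂ}

lemma mdiff_of_isMF {Γ : Subgroup (GL (Fin 2) ℝ)} (hf : IsMF Γ k f) : MDiff f := by
  obtain ⟨F, rfl⟩ := hf
  exact F.holo'

lemma mdiff_of_isCF {Γ : Subgroup (GL (Fin 2) ℝ)} (hf : IsCF Γ k f) : MDiff f := by
  obtain ⟨F, rfl⟩ := hf
  exact F.holo'

lemma slash_SL_of_isMF (hf : IsMF 𝒮ℒ k f) (γ : SL(2, ℤ)) : f ∣[k] γ = f := by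
  obtain ⟨F, rfl⟩ := hf
  exact F.slash_action_eq' _ ⟨γ, rfl⟩

/-- Constructor: a holomorphic `Γ₀(N)`-invariant function all of whose `SL(2,ℤ)`-conjugates are
bounded at `i∞` is a modular form. -/
lemma isMF_of [NeZero N] (h1 : SlInv N k f) (h2 : MDiff f)
    (h3 : ∀ γ : SL(2, ℤ), IsBoundedAtImInfty (f ∣[k] γ)) : IsMF (G0 N) k f := by
  refine ⟨{ toFun := f
            slash_action_eq' := ?_
            holo' := h2
            bdd_at_cusps' := ?_ }, rfl⟩
  · rintro _ ⟨γ, hγ, rfl⟩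
    exact h1 γ hγ
  · intro c hc
    rw [Subgroup.IsArithmetic.isCusp_iff_isCusp_SL2Z] at hc
    rw [OnePoint.isBoundedAt_iff_forall_SL2Z hc]
    intro γ _
    exact h3 γ

/-- Constructor: a holomorphic `Γ₀(N)`-invariant function all of whose `SL(2,ℤ)`-conjugates
vanish at `i∞` is a cusp form. -/
lemma isCF_of [NeZero N] (h1 : SlInv N k f) (h2 : MDiff f)
    (h3 : ∀ γ : SL(2, ℤ), IsZeroAtImInfty (f ∣[k] γ)) : IsCF (G0 N) k f := by
  refine ⟨{ toFun := f
            slash_action_eq' := ?_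
            holo' := h2
            zero_at_cusps' := ?_ }, rfl⟩
  · rintro _ ⟨γ, hγ, rfl⟩
    exact h1 γ hγ
  · intro c hc
    rw [Subgroup.IsArithmetic.isCusp_iff_isCusp_SL2Z] at hc
    rw [OnePoint.isZeroAt_iff_forall_SL2Z hc]
    intro γ _
    exact h3 γ

/-- Constructor in level one. -/
lemma isMF_SL_of (h1 : ∀ γ : SL(2, ℤ), f ∣[k] γ = f) (h2 : MDiff f)
    (h3 : IsBoundedAtImInfty f) : IsMF 𝒮ℒ k f := by
  refine ⟨{ toFun := f
            slash_action_eq' := ?_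
            holo' := h2
            bdd_at_cusps' := ?_ }, rfl⟩
  · rintro _ ⟨γ, rfl⟩
    exact h1 γ
  · intro c hc
    rw [OnePoint.isBoundedAt_iff_forall_SL2Z hc]
    intro γ _
    rw [h1 γ]
    exact h3

/-- Constructor in level one, cusp forms. -/
lemma isCF_SL_of (h1 : ∀ γ : SL(2, ℤ), f ∣[k] γ = f) (h2 : MDiff f)
    (h3 : IsZeroAtImInfty f) : IsCF 𝒮ℒ k f := by
  refine ⟨{ toFun := f
            slash_action_eq' := ?_
            holo' := h2
            zero_at_cusps' := ?_ }, rfl⟩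
  · rintro _ ⟨γ, rfl⟩
    exact h1 γ
  · intro c hc
    rw [OnePoint.isZeroAt_iff_forall_SL2Z hc]
    intro γ _
    rw [h1 γ]
    exact h3

lemma isBoundedAtImInfty_of_isMF_SL (hf : IsMF 𝒮ℒ k f) : IsBoundedAtImInfty f :=
  hf.niceSL.bdd

/-- All conjugates are conjugates by coset representatives. -/
lemma slash_eq_vec (hf : SlInv N k f) (g : SL(2, ℤ)) :
    f ∣[k] g = fun z => vec k f z (QuotientGroup.mk g⁻¹ : Q N) := by
  funext z
  rw [vec_mk hf, inv_inv]

end constructors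

section frame

lemma perm_apply {N : ℕ} (γ : SL(2, ℤ)) (q q' : Q N) :
    (perm γ : Matrix (Q N) (Q N) ℂ) q q' = if q' = γ⁻¹ • q then 1 else 0 := rfl

lemma Frame.Φ_apply {N : ℕ} (fr : Frame N) (z : ℍ) (q j : Q N) :
    fr.Φ z q j = vec (fr.k j) (fr.F j) z q := rfl

variable {N : ℕ} [NeZero N]

lemma perm_one : (perm 1 : Matrix (Q N) (Q N) ℂ) = 1 := by
  ext q q'
  simp [perm_apply, Matrix.one_apply, eq_comm]

lemma perm_mul (γ₁ γ₂ : SL(2, ℤ)) :
    (perm (γ₁ * γ₂) : Matrix (Q N) (Q N) ℂ) = perm γ₁ * perm γ₂ := by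
  ext q q'
  simp only [perm_apply, Matrix.mul_apply, mul_ite, mul_one, mul_zero]
  rw [Finset.sum_eq_single (γ₁⁻¹ • q)]
  · simp [mul_smul]
  · intro b _ hb
    simp [hb]
  · simp

lemma perm_mul_perm_inv (γ : SL(2, ℤ)) :
    (perm γ : Matrix (Q N) (Q N) ℂ) * perm γ⁻¹ = 1 := by
  rw [← perm_mul, mul_inv_cancel, perm_one]

lemma perm_inv_mul_perm (γ : SL(2, ℤ)) :
    (perm γ⁻¹ : Matrix (Q N) (Q N) ℂ) * perm γ = 1 := by
  rw [← perm_mul, inv_mul_cancel, perm_one]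

lemma perm_pow (γ : SL(2, ℤ)) (n : ℕ) :
    (perm (γ ^ n) : Matrix (Q N) (Q N) ℂ) = perm γ ^ n := by
  induction n with
  | zero => simp [perm_one]
  | succ n ih => rw [pow_succ, perm_mul, ih, pow_succ]

/-- The transformation law of the matrix of conjugates. -/
lemma Frame.Φ_smul (fr : Frame N) (γ : SL(2, ℤ)) (z : ℍ) :
    fr.Φ (γ • z) = perm γ * fr.Φ z * Matrix.diagonal (fun j => denom γ z ^ fr.k j) := by
  ext q j
  rw [Matrix.mul_diagonal, Frame.Φ_apply, vec_smul (slInv_of_isMF (fr.isMF j)), Matrix.mul_apply]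
  simp only [perm_apply, ite_mul, one_mul, zero_mul]
  rw [Finset.sum_eq_single (γ⁻¹ • q)]
  · simp [Frame.Φ_apply, mul_comm]
  · intro b _ hb
    simp [hb]
  · simp

/-- Each entry of the matrix of conjugates is holomorphic. -/
lemma Frame.mdiff_Φ (fr : Frame N) (q j : Q N) : MDiff (fun z => fr.Φ z q j) :=
  mdiff_vec (mdiff_of_isMF (fr.isMF j)) q

lemma Frame.isBoundedAtImInfty_Φ (fr : Frame N) (q j : Q N) :
    IsBoundedAtImInfty (fun z => fr.Φ z q j) :=
  isBoundedAtImInfty_vec (fr.isMF j) q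

end frame

section ellipticPoints

/-- `ρ = e^{2πi/3}`. -/
noncomputable def rho : ℍ := ⟨⟨-1 / 2, Real.sqrt 3 / 2⟩, by simp⟩

lemma rho_coe : (rho : ℂ) = ⟨-1 / 2, Real.sqrt 3 / 2⟩ := rfl

lemma rho_sq : (rho : ℂ) ^ 2 + rho + 1 = 0 := by
  rw [rho_coe]
  apply Complex.ext
  · simp [pow_two]
    have := Real.mul_self_sqrt (show (0:ℝ) ≤ 3 by norm_num)
    nlinarith
  · simp [pow_two]
    ring

lemma S_smul_I : ModularGroup.S • UpperHalfPlane.I = UpperHalfPlane.I := by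
  rw [UpperHalfPlane.ext_iff, UpperHalfPlane.modular_S_smul]
  simp [UpperHalfPlane.I]

lemma denom_S_I : denom ModularGroup.S UpperHalfPlane.I = Complex.I := by
  rw [ModularGroup.denom_S]
  rfl

lemma ST_smul_rho : (ModularGroup.S * ModularGroup.T : SL(2, ℤ)) • rho = rho := by
  rw [mul_smul, UpperHalfPlane.ext_iff, UpperHalfPlane.modular_S_smul, UpperHalfPlane.modular_T_smul]
  simp only [coe_vadd]
  have h := rho_sq
  apply inv_eq_of_mul_eq_one_left
  push_cast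
  linear_combination -h

lemma denom_ST_rho :
    denom ((ModularGroup.S * ModularGroup.T : SL(2, ℤ)) : GL (Fin 2) ℝ) rho = (rho : ℂ) + 1 := by
  rw [ModularGroup.denom_apply]
  have h10 : ((ModularGroup.S * ModularGroup.T : SL(2, ℤ)) : Matrix (Fin 2) (Fin 2) ℤ) 1 0 = 1 := by
    rw [Matrix.SpecialLinearGroup.coe_mul, ModularGroup.coe_S, ModularGroup.coe_T]
    simp [Matrix.mul_apply, Fin.sum_univ_two]
  have h11 : ((ModularGroup.S * ModularGroup.T : SL(2, ℤ)) : Matrix (Fin 2) (Fin 2) ℤ) 1 1 = 1 := by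
    rw [Matrix.SpecialLinearGroup.coe_mul, ModularGroup.coe_S, ModularGroup.coe_T]
    simp [Matrix.mul_apply, Fin.sum_univ_two]
  rw [h10, h11]
  simp

/-- `ξ = ρ + 1 = e^{πi/3}`, a primitive sixth root of unity. -/
lemma rho_add_one_pow_three : ((rho : ℂ) + 1) ^ 3 = -1 := by
  linear_combination ((rho : ℂ) + 2) * rho_sq


end ellipticPoints

end Fermat.Agent.S20
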