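import Fermat.Agent.S20.Defs

set_option autoImplicit false

/-!
# S20 package [A]: holomorphic functions on `ℍ`

* `mdiff_mul_eq_zero` : holomorphic functions on `ℍ` have no zero divisors.
* `mdiff_det` : the determinant of a matrix of holomorphic functions is holomorphic.
-/

open UpperHalfPlane Filter
open scoped MatrixGroups ModularForm Manifold Real Topology Matrix

namespace Fermat.Agent.S20

/-- A1: holomorphic functions on `ℍ` have no zero divisors. -/
theorem mdiff_mul_eq_zero {f g : ℍ → ℂ} (hf : MDiff f) (hg : MDiff g) (h : f * g = 0) :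
    f = 0 ∨ g = 0 := by
  have hf' : AnalyticOnNhd ℂ (f ∘ ofComplex) {z : ℂ | 0 < z.im} :=
    (UpperHalfPlane.mdifferentiable_iff.mp hf).analyticOnNhd isOpen_upperHalfPlaneSet
  have hg' : AnalyticOnNhd ℂ (g ∘ ofComplex) {z : ℂ | 0 < z.im} :=
    (UpperHalfPlane.mdifferentiable_iff.mp hg).analyticOnNhd isOpen_upperHalfPlaneSet
  have hU : IsPreconnected {z : ℂ | 0 < z.im} := (convex_halfSpace_im_gt 0).isPreconnected
  have hfg : ∀ z ∈ {z : ℂ | 0 < z.im}, (f ∘ ofComplex) z * (g ∘ ofComplex) z = 0 := by
    intro z _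
    have := congrFun h (ofComplex z)
    simpa using this
  rcases hf'.eq_zero_or_eq_zero_of_mul_eq_zero hg' hfg hU with h1 | h1
  · left
    funext τ
    have := h1 (τ : ℂ) τ.im_pos
    simpa [ofComplex_apply] using this
  · right
    funext τ
    have := h1 (τ : ℂ) τ.im_pos
    simpa [ofComplex_apply] using this

/-- A finite sum of holomorphic functions is holomorphic. -/
theorem Holo.mdiff_sum {ι : Type*} (s : Finset ι) (F : ι → ℍ → ℂ) (hF : ∀ i ∈ s, MDiff (F i)) :
    MDiff (fun z => ∑ i ∈ s, F i z) := by
  classical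
  induction s using Finset.induction_on with
  | empty => simpa using (mdifferentiable_const : MDiff (fun _ : ℍ => (0 : ℂ)))
  | insert a s ha ih =>
    have h1 : MDiff (F a) := hF a (Finset.mem_insert_self a s)
    have h2 := ih fun i hi => hF i (Finset.mem_insert_of_mem hi)
    have h3 : (fun z => ∑ i ∈ insert a s, F i z) = fun z => F a z + ∑ i ∈ s, F i z := by
      funext z
      rw [Finset.sum_insert ha]
    rw [h3]
    exact h1.add h2

/-- A finite product of holomorphic functions is holomorphic. -/
theorem Holo.mdiff_prod {ι : Type*} (s : Finset ι) (F : ι → ℍ → ℂ) (hF : ∀ i ∈ s, MDiff (F i)) :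
    MDiff (fun z => ∏ i ∈ s, F i z) := by
  classical
  induction s using Finset.induction_on with
  | empty => simpa using (mdifferentiable_const : MDiff (fun _ : ℍ => (1 : ℂ)))
  | insert a s ha ih =>
    have h1 : MDiff (F a) := hF a (Finset.mem_insert_self a s)
    have h2 := ih fun i hi => hF i (Finset.mem_insert_of_mem hi)
    have h3 : (fun z => ∏ i ∈ insert a s, F i z) = fun z => F a z * ∏ i ∈ s, F i z := by
      funext z
      rw [Finset.prod_insert ha]
    rw [h3]
    exact h1.mul h2

/-- A5: the determinant of a matrix of holomorphic functions is holomorphic. -/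
theorem mdiff_det {ι : Type} [Fintype ι] [DecidableEq ι] (M : ℍ → Matrix ι ι ℂ)
    (hM : ∀ i j, MDiff (fun z => M z i j)) : MDiff (fun z => (M z).det) := by
  have h : (fun z => (M z).det) =
      fun z => ∑ σ : Equiv.Perm ι, (Equiv.Perm.sign σ : ℂ) * ∏ i, M z (σ i) i := by
    funext z
    rw [Matrix.det_apply]
    refine Finset.sum_congr rfl fun σ _ => ?_
    rw [Units.smul_def, zsmul_eq_mul]
  rw [h]
  refine Holo.mdiff_sum _ _ fun σ _ => ?_
  exact mdifferentiable_const.mul (Holo.mdiff_prod _ _ fun i _ => hM (σ i) i)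

end Fermat.Agent.S20
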