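import Fermat.Agent.S20.Normalizer
import Fermat.Agent.S20.Holo

set_option autoImplicit false

/-!
# S20, package [K] (core): Cramer's rule for a perfect frame

For a frame `fr` whose matrix of conjugates `Φ` is invertible at every point of `ℍ` and (after
normalisation by a cusp normaliser `E`) at `i∞`, every modular form `f` of weight `K` for `Γ₀(N)`
is a combination `f = ∑ a_j F_j` with coefficients `a_j` of level one and weight `K - k_j`:
`a(z) = Φ(z)⁻¹ vec f(z)`.  This file proves this (`Frame.PerfectFor.exists_coeff`) and converts a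
perfect frame into the `Fin n`-indexed interface (`exists_good_basis_of_perfectFor`).
-/

open UpperHalfPlane Filter
open scoped MatrixGroups ModularForm Manifold Real Topology Matrix

namespace Fermat.Agent.S20

open Fermat.Agent.S23

section K

variable {N : ℕ} [NeZero N] {E : ℍ → Matrix (Q N) (Q N) ℂ}

/-- The Cramer coefficients `Φ(z)⁻¹ vec f(z)` of `f` in a frame. -/
noncomputable def Frame.cramerCoeff (fr : Frame N) (K : ℤ) (f : ℍ → ℂ) (j : Q N) (z : ℍ) : ℂ :=
  ((fr.Φ z).det)⁻¹ * (fr.Φ z).cramer (vec K f z) j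

lemma Frame.Φ_mulVec_cramerCoeff (fr : Frame N) (K : ℤ) (f : ℍ → ℂ) (z : ℍ)
    (hz : (fr.Φ z).det ≠ 0) :
    fr.Φ z *ᵥ (fun j => fr.cramerCoeff K f j z) = vec K f z := by
  have h : (fun j => fr.cramerCoeff K f j z) =
      ((fr.Φ z).det)⁻¹ • (fr.Φ z).cramer (vec K f z) := by
    funext j
    simp [Frame.cramerCoeff]
  rw [h, Matrix.mulVec_smul, Matrix.mulVec_cramer, smul_smul, inv_mul_cancel₀ hz, one_smul]

lemma Frame.eq_cramerCoeff (fr : Frame N) (K : ℤ) (f : ℍ → ℂ) (z : ℍ)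
    (hz : (fr.Φ z).det ≠ 0) (v : Q N → ℂ) (hv : fr.Φ z *ᵥ v = vec K f z) :
    v = fun j => fr.cramerCoeff K f j z := by
  have h := fr.Φ_mulVec_cramerCoeff K f z hz
  have h0 : fr.Φ z *ᵥ (v - fun j => fr.cramerCoeff K f j z) = 0 := by
    rw [Matrix.mulVec_sub, hv, h, sub_self]
  exact sub_eq_zero.mp (Matrix.eq_zero_of_mulVec_eq_zero hz h0)

/-- The Cramer coefficients are holomorphic. -/
lemma Frame.mdiff_cramerCoeff (fr : Frame N) (hdet : ∀ z, (fr.Φ z).det ≠ 0) (K : ℤ)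
    {f : ℍ → ℂ} (hf : MDiff f) (j : Q N) : MDiff (fr.cramerCoeff K f j) := by
  have h1 : MDiff (fun z => (fr.Φ z).det) := mdiff_det _ fun q j' => fr.mdiff_Φ q j'
  have h2 : MDiff (fun z => (fr.Φ z).cramer (vec K f z) j) := by
    have : (fun z => (fr.Φ z).cramer (vec K f z) j) =
        fun z => ((fr.Φ z).updateCol j (vec K f z)).det := by
      funext z
      rw [Matrix.cramer_apply]
    rw [this]
    refine mdiff_det _ fun q j' => ?_
    by_cases hj : j' = j
    · subst hj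
      simpa [Matrix.updateCol_apply] using mdiff_vec hf q
    · simpa [Matrix.updateCol_apply, hj] using fr.mdiff_Φ q j'
  rw [UpperHalfPlane.mdifferentiable_iff] at h1 h2 ⊢
  have h3 : DifferentiableOn ℂ
      (fun w : ℂ => (((fun z => (fr.Φ z).det) ∘ ofComplex) w)⁻¹ *
        ((fun z => (fr.Φ z).cramer (vec K f z) j) ∘ ofComplex) w) {z : ℂ | 0 < z.im} :=
    (h1.inv fun w _ => hdet _).mul h2
  exact h3

/-- The transformation law of the Cramer coefficients. -/
lemma Frame.cramerCoeff_smul (fr : Frame N) (hdet : ∀ z, (fr.Φ z).det ≠ 0) {K : ℤ}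
    {f : ℍ → ℂ} (hf : SlInv N K f) (γ : SL(2, ℤ)) (z : ℍ) (j : Q N) :
    fr.cramerCoeff K f j (γ • z) = denom γ z ^ (K - fr.k j) * fr.cramerCoeff K f j z := by
  have hd : denom γ z ≠ 0 := denom_ne_zero _ _
  have key : fr.Φ (γ • z) *ᵥ (fun j => denom γ z ^ (K - fr.k j) * fr.cramerCoeff K f j z) =
      vec K f (γ • z) := by
    rw [Frame.Φ_smul, vec_smul' hf, ← Matrix.mulVec_mulVec, ← Matrix.mulVec_mulVec]
    have h1 : Matrix.diagonal (fun j => denom γ z ^ fr.k j) *ᵥ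
        (fun j => denom γ z ^ (K - fr.k j) * fr.cramerCoeff K f j z) =
        denom γ z ^ K • fun j => fr.cramerCoeff K f j z := by
      funext j
      rw [Matrix.mulVec_diagonal, Pi.smul_apply, smul_eq_mul, ← mul_assoc, ← zpow_add₀ hd]
      congr 2
      ring
    rw [h1, Matrix.mulVec_smul, Matrix.mulVec_smul, fr.Φ_mulVec_cramerCoeff K f z (hdet z)]
  exact (congrFun (fr.eq_cramerCoeff K f (γ • z) (hdet _) _ key) j).symm

/-- The Cramer coefficients are invariant of weight `K - k_j` under `SL(2,ℤ)`. -/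
lemma Frame.cramerCoeff_slash (fr : Frame N) (hdet : ∀ z, (fr.Φ z).det ≠ 0) {K : ℤ}
    {f : ℍ → ℂ} (hf : SlInv N K f) (j : Q N) (γ : SL(2, ℤ)) :
    fr.cramerCoeff K f j ∣[K - fr.k j] γ = fr.cramerCoeff K f j := by
  funext z
  have hd : denom γ z ≠ 0 := denom_ne_zero _ _
  rw [ModularForm.SL_slash_apply, fr.cramerCoeff_smul hdet hf, mul_comm, ← mul_assoc,
    ← zpow_add₀ hd, neg_add_cancel, zpow_zero, one_mul]

/-- The Cramer coefficients converge at `i∞`. -/
lemma Frame.PerfectFor.tendsto_cramerCoeff (hE : IsCuspNormalizer N E) {fr : Frame N}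
    (hfr : fr.PerfectFor E) {K : ℤ} {f : ℍ → ℂ} (hf : IsMF (G0 N) K f) (j : Q N) :
    ∃ c : ℂ, Tendsto (fr.cramerCoeff K f j) atImInfty (𝓝 c) := by
  obtain ⟨hdet, L, hL, hlim⟩ := hfr
  obtain ⟨l, hl⟩ := hE.exists_tendsto K f hf
  -- `a(z) = (E z * Φ z)⁻¹ *ᵥ (E z *ᵥ vec K f z)`
  have hrep : ∀ z, (fun j => fr.cramerCoeff K f j z) =
      (E z * fr.Φ z)⁻¹ *ᵥ (E z *ᵥ vec K f z) := by
    intro z
    have hdetM : IsUnit (E z * fr.Φ z).det := by
      rw [Matrix.det_mul]
      exact (isUnit_iff_ne_zero.mpr (hE.det_ne_zero z)).mul (isUnit_iff_ne_zero.mpr (hdet z))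
    have h1 : (E z * fr.Φ z) *ᵥ (fun j => fr.cramerCoeff K f j z) = E z *ᵥ vec K f z := by
      rw [← Matrix.mulVec_mulVec, fr.Φ_mulVec_cramerCoeff K f z (hdet z)]
    rw [← h1, Matrix.mulVec_mulVec, Matrix.nonsing_inv_mul _ hdetM, Matrix.one_mulVec]
  have hinv : Tendsto (fun z : ℍ => (E z * fr.Φ z)⁻¹) atImInfty (𝓝 L⁻¹) := by
    have hc : ContinuousAt Inv.inv L := by
      apply continuousAt_matrix_inv
      rw [Ring.inverse_eq_inv']
      exact continuousAt_inv₀ hL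
    exact hc.tendsto.comp hlim
  have hmv : Tendsto (fun z : ℍ => (E z * fr.Φ z)⁻¹ *ᵥ (E z *ᵥ vec K f z)) atImInfty
      (𝓝 (L⁻¹ *ᵥ l)) := by
    rw [tendsto_pi_nhds]
    intro j
    simp only [Matrix.mulVec, dotProduct]
    refine tendsto_finsetSum _ fun q _ => ?_
    have h1 : Tendsto (fun z : ℍ => (E z * fr.Φ z)⁻¹ j q) atImInfty (𝓝 (L⁻¹ j q)) :=
      ((continuous_apply q).tendsto _).comp (((continuous_apply j).tendsto _).comp hinv)
    have h2 : Tendsto (fun z : ℍ => (E z *ᵥ vec K f z) q) atImInfty (𝓝 (l q)) :=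
      ((continuous_apply q).tendsto _).comp hl
    exact h1.mul h2
  refine ⟨(L⁻¹ *ᵥ l) j, ?_⟩
  have h3 := ((continuous_apply j).tendsto _).comp hmv
  refine h3.congr fun z => ?_
  simp only [Function.comp_apply]
  rw [← hrep z]

/-- K1: in a perfect frame every form is a combination with level one coefficients
(`a(z) = Φ(z)⁻¹ vec f(z) = (E Φ)⁻¹ (E vec f)`: holomorphic, weight `K - k_j`, bounded at `i∞`). -/
theorem Frame.PerfectFor.exists_coeff (hE : IsCuspNormalizer N E) {fr : Frame N}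
    (hfr : fr.PerfectFor E) {K : ℤ} {f : ℍ → ℂ} (hf : IsMF (G0 N) K f) :
    ∃ a : Q N → ℍ → ℂ, (∀ j, IsMF 𝒮ℒ (K - fr.k j) (a j)) ∧ f = ∑ j, a j * fr.F j := by
  have hdet := hfr.1
  have hsl : SlInv N K f := slInv_of_isMF hf
  refine ⟨fun j => fr.cramerCoeff K f j, fun j => ?_, ?_⟩
  · refine isMF_SL_of (fr.cramerCoeff_slash hdet hsl j)
      (fr.mdiff_cramerCoeff hdet K (mdiff_of_isMF hf) j) ?_
    obtain ⟨c, hc⟩ := hfr.tendsto_cramerCoeff hE hf j
    exact hc.isBigO_one ℝ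
  · funext z
    have h := congrFun (fr.Φ_mulVec_cramerCoeff K f z (hdet z)) (QuotientGroup.mk 1 : Q N)
    rw [vec_one hsl] at h
    rw [← h, Finset.sum_apply]
    simp only [Matrix.mulVec, dotProduct, Pi.mul_apply]
    refine Finset.sum_congr rfl fun j _ => ?_
    rw [Frame.Φ_apply, vec_one (slInv_of_isMF (fr.isMF j)), mul_comm]

/-- A frame whose matrix of conjugates is invertible at every point is a family of level one
independent forms: the combination map is injective. -/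
lemma Frame.eq_zero_of_sum_eq_zero (fr : Frame N) (hdet : ∀ z, (fr.Φ z).det ≠ 0) (K : ℤ)
    (a : Q N → ℍ → ℂ) (ha : ∀ j, IsMF 𝒮ℒ (K - fr.k j) (a j))
    (h : ∑ j, a j * fr.F j = 0) : ∀ j, a j = 0 := by
  have key : ∀ z, fr.Φ z *ᵥ (fun j => a j z) = 0 := by
    intro z
    funext q
    have h1 : ∀ j, vec K (a j * fr.F j) z q = a j z * vec (fr.k j) (fr.F j) z q := by
      intro j
      have h2 := vec_mul (N := N) (k₁ := K - fr.k j) (k₂ := fr.k j) (a j) (fr.F j)
        (slash_SL_of_isMF (ha j)) z q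
      rwa [sub_add_cancel] at h2
    have h3 : vec K (∑ j, a j * fr.F j) z q = 0 := by rw [h, vec_zero]
    rw [vec_sum] at h3
    simp only [Matrix.mulVec, dotProduct, Pi.zero_apply]
    rw [← h3]
    refine Finset.sum_congr rfl fun j _ => ?_
    rw [h1, Frame.Φ_apply, mul_comm]
  intro j
  funext z
  exact congrFun (Matrix.eq_zero_of_mulVec_eq_zero (hdet z) (key z)) j

/-- Pointwise invertibility in the "all conjugates" form. -/
lemma Frame.eq_zero_of_forall_slash (fr : Frame N) (z : ℍ) (hz : (fr.Φ z).det ≠ 0)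
    (c : Q N → ℂ) (h : ∀ γ : SL(2, ℤ), ∑ j, c j * ((fr.F j) ∣[fr.k j] γ) z = 0) : c = 0 := by
  refine Matrix.eq_zero_of_mulVec_eq_zero hz ?_
  funext q
  have h1 := h (Quotient.out q : SL(2, ℤ))⁻¹
  simp only [Matrix.mulVec, dotProduct, Pi.zero_apply]
  rw [← h1]
  refine Finset.sum_congr rfl fun j _ => ?_
  rw [Frame.Φ_apply, mul_comm]
  rfl

/-- K2 (hypothesis form): a perfect frame gives the `Fin n`-indexed interface. -/
theorem exists_good_basis_of_perfectFor (hE : IsCuspNormalizer N E) (fr : Frame N)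
    (hfr : fr.PerfectFor E) :
    ∃ (n : ℕ) (k : Fin n → ℤ) (F : Fin n → ℍ → ℂ),
      (∀ i, IsMF (G0 N) (k i) (F i)) ∧
      (∀ (K : ℤ) (f : ℍ → ℂ), IsMF (G0 N) K f →
        ∃ a : Fin n → ℍ → ℂ, (∀ i, IsMF 𝒮ℒ (K - k i) (a i)) ∧ f = ∑ i, a i * F i) ∧
      (∀ (K : ℤ) (a : Fin n → ℍ → ℂ), (∀ i, IsMF 𝒮ℒ (K - k i) (a i)) →
        ∑ i, a i * F i = 0 → ∀ i, a i = 0) ∧
      (∀ (z : ℍ) (c : Fin n → ℂ),
        (∀ γ : SL(2, ℤ), ∑ i, c i * ((F i) ∣[k i] γ) z = 0) → c = 0) ∧
      n = (CongruenceSubgroup.Gamma0 N).index := by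
  have hdet := hfr.1
  let e : Q N ≃ Fin (Fintype.card (Q N)) := Fintype.equivFin (Q N)
  refine ⟨Fintype.card (Q N), fun i => fr.k (e.symm i), fun i => fr.F (e.symm i),
    fun i => fr.isMF _, ?_, ?_, ?_, ?_⟩
  · intro K f hf
    obtain ⟨a, ha, hsum⟩ := hfr.exists_coeff hE hf
    refine ⟨fun i => a (e.symm i), fun i => ha _, ?_⟩
    rw [hsum]
    exact (Equiv.sum_comp e.symm (fun j => a j * fr.F j)).symm
  · intro K a ha h i
    have h1 : ∑ j, (fun j => a (e j)) j * fr.F j = 0 := by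
      rw [← h]
      rw [← Equiv.sum_comp e.symm (fun j => a (e j) * fr.F j)]
      simp
    have h2 := fr.eq_zero_of_sum_eq_zero hdet K (fun j => a (e j))
      (fun j => by simpa using ha (e j)) h1 (e.symm i)
    simpa using h2
  · intro z c h
    have h1 : ∀ γ : SL(2, ℤ), ∑ j, (fun j => c (e j)) j * ((fr.F j) ∣[fr.k j] γ) z = 0 := by
      intro γ
      rw [← h γ]
      rw [← Equiv.sum_comp e.symm (fun j => c (e j) * ((fr.F j) ∣[fr.k j] γ) z)]
      simp
    have h2 := fr.eq_zero_of_forall_slash z (hdet z) (fun j => c (e j)) h1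
    funext i
    have h3 := congrFun h2 (e.symm i)
    simpa using h3
  · rw [Subgroup.index, Nat.card_eq_fintype_card]

end K

end Fermat.Agent.S20
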