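import Fermat.Agent.S20.Normalizer
import Fermat.Agent.S20.Holo
import Fermat.Agent.Lib.HeckeTrivialWeights

set_option autoImplicit false

/-!
# S20 package [D]: the dual frame

For a perfect frame `(F_j, k_j)` the rows of `Ψ(z) = Δ(z) Φ(z)⁻¹` are (vectors of conjugates of)
cusp forms `G_j` of weight `12 - k_j` for `Γ₀(N)`.  Consequences: `k_j < 12`, and the `G_j` with
`k_j = 10` are linearly independent weight two cusp forms.
-/

open UpperHalfPlane Filter
open scoped MatrixGroups ModularForm Manifold Real Topology Matrix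

namespace Fermat.Agent.S20

open Fermat.Agent.S23

variable {N : ℕ} [NeZero N]

/-- The dual matrix `Ψ(z) = Δ(z) Φ(z)⁻¹`. -/
noncomputable def Frame.Ψ (fr : Frame N) (z : ℍ) : Matrix (Q N) (Q N) ℂ :=
  ModularForm.discriminant z • (fr.Φ z)⁻¹

lemma discriminant_sl_smul (γ : SL(2, ℤ)) (z : ℍ) :
    ModularForm.discriminant (γ • z) = denom γ z ^ (12 : ℤ) * ModularForm.discriminant z :=
  SlashInvariantForm.slash_action_eqn'' CuspForm.discriminant
    (show (Matrix.SpecialLinearGroup.mapGL ℝ γ) ∈ (𝒮ℒ : Subgroup (GL (Fin 2) ℝ)) from ⟨γ, rfl⟩) z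

lemma perm_inv (γ : SL(2, ℤ)) : (perm γ : Matrix (Q N) (Q N) ℂ)⁻¹ = perm γ⁻¹ :=
  Matrix.inv_eq_right_inv (perm_mul_perm_inv γ)

lemma diagonal_inv' (d : Q N → ℂ) (hd : ∀ j, d j ≠ 0) :
    (Matrix.diagonal d)⁻¹ = Matrix.diagonal (fun j => (d j)⁻¹) := by
  apply Matrix.inv_eq_right_inv
  rw [Matrix.diagonal_mul_diagonal]
  have : (fun j => d j * (d j)⁻¹) = fun _ => (1 : ℂ) := by
    funext j
    exact mul_inv_cancel₀ (hd j)
  rw [this, Matrix.diagonal_one]

/-- The transformation law of the dual matrix: row `j` transforms like the vector of conjugates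
of a form of weight `12 - k_j`. -/
lemma Frame.Ψ_smul (fr : Frame N) (γ : SL(2, ℤ)) (z : ℍ) (j q : Q N) :
    fr.Ψ (γ • z) j q = denom γ z ^ (12 - fr.k j) * fr.Ψ z j (γ⁻¹ • q) := by
  have hd : denom γ z ≠ 0 := denom_ne_zero _ _
  unfold Frame.Ψ
  rw [fr.Φ_smul γ z, Matrix.mul_inv_rev, Matrix.mul_inv_rev, perm_inv,
    diagonal_inv' _ (fun j => zpow_ne_zero _ hd), discriminant_sl_smul]
  rw [Matrix.smul_apply, Matrix.smul_apply, Matrix.diagonal_mul, Matrix.mul_apply]
  have hsum : ∑ q' : Q N, (fr.Φ z)⁻¹ j q' * (perm γ⁻¹ : Matrix (Q N) (Q N) ℂ) q' q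
      = (fr.Φ z)⁻¹ j (γ⁻¹ • q) := by
    rw [Finset.sum_eq_single (γ⁻¹ • q)]
    · simp [perm_apply]
    · intro b _ hb
      have : q ≠ γ • b := by
        intro h
        apply hb
        rw [h, inv_smul_smul]
      simp [perm_apply, this]
    · simp
  rw [hsum, zpow_sub₀ hd]
  simp only [smul_eq_mul]
  field_simp

/-- The `j`-th dual function `G_j = (Δ Φ⁻¹)_{j, 1}`. -/
noncomputable def Frame.dual (fr : Frame N) (j : Q N) : ℍ → ℂ :=
  fun z => fr.Ψ z j (QuotientGroup.mk 1)

/-- The conjugates of the dual functions are the entries of the dual matrix. -/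
lemma Frame.dual_slash (fr : Frame N) (j : Q N) (g : SL(2, ℤ)) :
    (fr.dual j) ∣[12 - fr.k j] g = fun z => fr.Ψ z j (QuotientGroup.mk g⁻¹) := by
  funext z
  have hd : denom g z ≠ 0 := denom_ne_zero _ _
  rw [ModularForm.SL_slash_apply]
  unfold Frame.dual
  rw [fr.Ψ_smul g z j]
  have h1 : g⁻¹ • (QuotientGroup.mk 1 : Q N) = QuotientGroup.mk g⁻¹ := by
    have : g⁻¹ • (QuotientGroup.mk 1 : Q N) = QuotientGroup.mk (g⁻¹ * 1) := rfl
    rw [this, mul_one]
  rw [h1, mul_comm, ← mul_assoc, ← zpow_add₀ hd]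
  simp

lemma Frame.dual_slInv (fr : Frame N) (j : Q N) : SlInv N (12 - fr.k j) (fr.dual j) := by
  intro γ hγ
  rw [fr.dual_slash j γ]
  funext z
  have : (QuotientGroup.mk γ⁻¹ : Q N) = QuotientGroup.mk 1 := by
    rw [QuotientGroup.eq]
    simpa using hγ
  rw [this]
  rfl

/-- Entries of the dual matrix are holomorphic where `det Φ` does not vanish. -/
lemma Frame.mdiff_Ψ (fr : Frame N) (h : ∀ z, (fr.Φ z).det ≠ 0) (j q : Q N) :
    MDiff (fun z => fr.Ψ z j q) := by
  have hdet : MDiff (fun z => (fr.Φ z).det) := mdiff_det _ (fun i j => fr.mdiff_Φ i j)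
  have hadj : MDiff (fun z => (fr.Φ z).adjugate j q) := by
    have e : (fun z => (fr.Φ z).adjugate j q)
        = fun z => ((fr.Φ z).updateRow q (Pi.single j 1)).det := by
      funext z
      rw [Matrix.adjugate_apply]
    rw [e]
    apply mdiff_det
    intro i' j'
    by_cases hi : i' = q
    · have : (fun z => (fr.Φ z).updateRow q (Pi.single j 1) i' j')
          = fun _ => (Pi.single j (1 : ℂ) : Q N → ℂ) j' := by
        funext z
        rw [Matrix.updateRow_apply, if_pos hi]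
      rw [this]
      exact mdifferentiable_const
    · have : (fun z => (fr.Φ z).updateRow q (Pi.single j 1) i' j')
          = fun z => fr.Φ z i' j' := by
        funext z
        rw [Matrix.updateRow_apply, if_neg hi]
      rw [this]
      exact fr.mdiff_Φ i' j'
  have hΔ : MDiff (ModularForm.discriminant : ℍ → ℂ) := CuspForm.discriminant.holo'
  have e : (fun z => fr.Ψ z j q)
      = (ModularForm.discriminant : ℍ → ℂ) *
          ((fun z => (fr.Φ z).adjugate j q) / (fun z => (fr.Φ z).det)) := by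
    funext z
    simp only [Frame.Ψ, Matrix.smul_apply, Matrix.inv_def, Ring.inverse_eq_inv', smul_eq_mul,
      Pi.mul_apply, Pi.div_apply]
    ring
  rw [e]
  exact hΔ.mul (hadj.div hdet h)

/-- Inversion of matrices is continuous at invertible matrices. -/
lemma tendsto_matrix_inv {α : Type*} {l : Filter α} {M : α → Matrix (Q N) (Q N) ℂ}
    {L : Matrix (Q N) (Q N) ℂ} (hM : Tendsto M l (𝓝 L)) (hL : L.det ≠ 0) :
    Tendsto (fun x => (M x)⁻¹) l (𝓝 L⁻¹) := by
  have h1 : Tendsto (fun x => (M x).det) l (𝓝 L.det) :=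
    ((continuous_id.matrix_det).tendsto L).comp hM
  have h2 : Tendsto (fun x => (M x).adjugate) l (𝓝 L.adjugate) :=
    ((continuous_id.matrix_adjugate).tendsto L).comp hM
  have h3 := (h1.inv₀ hL).smul h2
  simpa [Matrix.inv_def, Ring.inverse_eq_inv'] using h3

lemma Frame.det_Ψ_ne_zero (fr : Frame N) (z : ℍ) (h : (fr.Φ z).det ≠ 0) :
    (fr.Ψ z).det ≠ 0 := by
  unfold Frame.Ψ
  rw [Matrix.det_smul, Matrix.det_nonsing_inv, Ring.inverse_eq_inv']
  exact mul_ne_zero (pow_ne_zero _ (ModularForm.discriminant_ne_zero z)) (inv_ne_zero h)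

variable {E : ℍ → Matrix (Q N) (Q N) ℂ}

/-- `Ψ = (E Φ)⁻¹ (Δ E)`. -/
lemma Frame.Ψ_eq (fr : Frame N) (z : ℍ) (hz : (E z).det ≠ 0) :
    (E z * fr.Φ z)⁻¹ * (ModularForm.discriminant z • E z) = fr.Ψ z := by
  have hu : IsUnit (E z).det := isUnit_iff_ne_zero.mpr hz
  have h1 : (fr.Φ z)⁻¹ * (E z)⁻¹ * E z = (fr.Φ z)⁻¹ := by
    rw [Matrix.mul_assoc, Matrix.nonsing_inv_mul _ hu, Matrix.mul_one]
  rw [Matrix.mul_inv_rev, Matrix.mul_smul, h1]
  rfl

/-- The dual matrix tends to `0` at `i∞`. -/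
lemma Frame.PerfectFor.tendsto_Ψ (hE : IsCuspNormalizer N E) {fr : Frame N}
    (hfr : fr.PerfectFor E) : Tendsto fr.Ψ atImInfty (𝓝 0) := by
  obtain ⟨-, L, hL, hLim⟩ := hfr
  have hinv := tendsto_matrix_inv hLim hL
  have hΔE := hE.tendsto_discriminant_smul
  have hcont : Continuous
      (fun p : Matrix (Q N) (Q N) ℂ × Matrix (Q N) (Q N) ℂ => p.1 * p.2) :=
    continuous_fst.matrix_mul continuous_snd
  have hprod := (hcont.tendsto (L⁻¹, 0)).comp (hinv.prodMk_nhds hΔE)
  have h0 : ((L⁻¹, (0 : Matrix (Q N) (Q N) ℂ)).1 * (L⁻¹, (0 : Matrix (Q N) (Q N) ℂ)).2)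
      = 0 := mul_zero _
  rw [h0] at hprod
  refine hprod.congr (fun z => ?_)
  exact fr.Ψ_eq z (hE.det_ne_zero z)

lemma Frame.PerfectFor.tendsto_Ψ_apply (hE : IsCuspNormalizer N E) {fr : Frame N}
    (hfr : fr.PerfectFor E) (j q : Q N) : Tendsto (fun z => fr.Ψ z j q) atImInfty (𝓝 0) := by
  have h := hfr.tendsto_Ψ hE
  have h1 := tendsto_pi_nhds.mp (tendsto_pi_nhds.mp h j) q
  simpa using h1

/-- **The dual functions are cusp forms of weight `12 - k_j`.** -/
theorem Frame.PerfectFor.dual_isCF (hE : IsCuspNormalizer N E) {fr : Frame N}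
    (hfr : fr.PerfectFor E) (j : Q N) : IsCF (G0 N) (12 - fr.k j) (fr.dual j) := by
  refine isCF_of (fr.dual_slInv j) (fr.mdiff_Ψ hfr.1 j _) ?_
  intro γ
  rw [fr.dual_slash j γ]
  exact hfr.tendsto_Ψ_apply hE j _

lemma Frame.dual_ne_zero (fr : Frame N) (h : ∀ z, (fr.Φ z).det ≠ 0) (j : Q N) :
    fr.dual j ≠ 0 := by
  intro h0
  have hrow : ∀ q, fr.Ψ UpperHalfPlane.I j q = 0 := by
    intro q
    obtain ⟨g, rfl⟩ := QuotientGroup.mk_surjective q
    have := congrFun (fr.dual_slash j g⁻¹) UpperHalfPlane.I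
    rw [inv_inv] at this
    rw [← this, h0, SlashAction.zero_slash]
    rfl
  exact fr.det_Ψ_ne_zero _ (h _) (Matrix.det_eq_zero_of_row_eq_zero j hrow)

/-- **The weights of a perfect frame are `< 12`.** -/
theorem Frame.PerfectFor.weight_lt_twelve (hE : IsCuspNormalizer N E) {fr : Frame N}
    (hfr : fr.PerfectFor E) (j : Q N) : fr.k j < 12 := by
  by_contra hlt
  push Not at hlt
  obtain ⟨G, hG⟩ := hfr.dual_isCF hE j
  have h0 : G = 0 :=
    Fermat.Agent.Lib.HeckeTrivialWeights.cuspForm_eq_zero_of_nonpos N (by linarith) G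
  apply fr.dual_ne_zero hfr.1 j
  rw [← hG, h0]
  rfl

/-- **The dual functions of weight two are linearly independent cusp forms.** -/
theorem Frame.PerfectFor.card_ten_le_finrank (hE : IsCuspNormalizer N E) {fr : Frame N}
    (hfr : fr.PerfectFor E) [FiniteDimensional ℂ (CuspForm (G0 N) 2)] :
    Fintype.card {j // fr.k j = 10} ≤ Module.finrank ℂ (CuspForm (G0 N) 2) := by
  classical
  have hcf : ∀ j : {j // fr.k j = 10}, IsCF (G0 N) 2 (fr.dual j) := fun j =>
    (hfr.dual_isCF hE j).weight_congr (by rw [j.2]; norm_num)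
  choose G hG using hcf
  have hli : LinearIndependent ℂ G := by
    rw [Fintype.linearIndependent_iff]
    intro c hc j₀
    let coe : CuspForm (G0 N) 2 →ₗ[ℂ] (ℍ → ℂ) :=
      { toFun := fun f => ⇑f
        map_add' := fun _ _ => rfl
        map_smul' := fun _ _ => rfl }
    have hfun : ∑ j, c j • fr.dual (j : Q N) = (0 : ℍ → ℂ) := by
      have h1 := congrArg coe hc
      rw [map_sum] at h1
      simp only [map_smul, map_zero] at h1
      have h2 : ∀ j, coe (G j) = fr.dual (j : Q N) := fun j => hG j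
      simp_rw [h2] at h1
      exact h1
    have hslash : ∀ (g : SL(2, ℤ)) (z : ℍ),
        ∑ j : {j // fr.k j = 10}, c j * fr.Ψ z j (QuotientGroup.mk g⁻¹) = 0 := by
      intro g z
      have h1 := congrArg (fun f : ℍ → ℂ => (f ∣[(2 : ℤ)] g) z) hfun
      simp only [SlashAction.sum_slash, ModularForm.SL_smul_slash, SlashAction.zero_slash,
        Finset.sum_apply, Pi.smul_apply, Pi.zero_apply, smul_eq_mul] at h1
      rw [← h1]
      refine Finset.sum_congr rfl fun j _ => ?_
      have h2 := fr.dual_slash j g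
      have h3 : (12 : ℤ) - fr.k j = 2 := by rw [j.2]; norm_num
      rw [h3] at h2
      rw [h2]
    set c' : Q N → ℂ := fun j => if h : fr.k j = 10 then c ⟨j, h⟩ else 0 with hc'
    have hvec : c' ᵥ* fr.Ψ UpperHalfPlane.I = 0 := by
      funext q
      obtain ⟨g, rfl⟩ := QuotientGroup.mk_surjective q
      have h1 := hslash g⁻¹ UpperHalfPlane.I
      rw [inv_inv] at h1
      rw [Pi.zero_apply, ← h1]
      simp only [Matrix.vecMul, dotProduct]
      have e1 : ∑ j : {j // fr.k j = 10}, c j * fr.Ψ UpperHalfPlane.I j (QuotientGroup.mk g)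
          = ∑ j : {j // fr.k j = 10},
              (fun x : Q N => c' x * fr.Ψ UpperHalfPlane.I x (QuotientGroup.mk g)) j := by
        refine Finset.sum_congr rfl fun j _ => ?_
        simp [hc', j.2]
      rw [e1, ← Finset.sum_subtype (Finset.univ.filter (fun j => fr.k j = 10))
        (fun x => by simp)
        (fun x : Q N => c' x * fr.Ψ UpperHalfPlane.I x (QuotientGroup.mk g)), Finset.sum_filter]
      refine Finset.sum_congr rfl fun j _ => ?_
      by_cases hj : fr.k j = 10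
      · simp [hj]
      · simp [hc', hj]
    have hzero := Matrix.eq_zero_of_vecMul_eq_zero
      (fr.det_Ψ_ne_zero UpperHalfPlane.I (hfr.1 _)) hvec
    have := congrFun hzero j₀
    simpa [hc', j₀.2] using this
  exact hli.fintype_card_le_finrank

end Fermat.Agent.S20
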