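import Fermat.Agent.S20.Defs

set_option autoImplicit false

/-!
# S20: the abstract "cusp normaliser" interface

`IsCuspNormalizer N E` collects exactly the properties of the matrix function
`E(z) = ∑_m e^{-2πimz/N} π_m` (spectral projections `π_m` of the permutation matrix of `T` on
`SL(2,ℤ) ⧸ Γ₀(N)`) which the descent and duality arguments use.  Everything downstream only uses
this interface.
-/

open UpperHalfPlane Filter
open scoped MatrixGroups ModularForm Manifold Real Topology Matrix

namespace Fermat.Agent.S20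

open Fermat.Agent.S23

/-- The abstract properties of the normalising matrix at `i∞`. -/
structure IsCuspNormalizer (N : ℕ) [NeZero N] (E : ℍ → Matrix (Q N) (Q N) ℂ) : Prop where
  /-- `E z` is invertible. -/
  det_ne_zero : ∀ z, (E z).det ≠ 0
  /-- The normalised vector of conjugates of a modular form converges at `i∞`. -/
  exists_tendsto : ∀ (K : ℤ) (f : ℍ → ℂ), IsMF (G0 N) K f →
    ∃ l : Q N → ℂ, Tendsto (fun z : ℍ => E z *ᵥ vec K f z) atImInfty (𝓝 l)
  /-- If the limit is zero, the form is divisible by `Δ`. -/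
  div_discriminant : ∀ (K : ℤ) (f : ℍ → ℂ), IsMF (G0 N) K f →
    Tendsto (fun z : ℍ => E z *ᵥ vec K f z) atImInfty (𝓝 0) →
    ∃ g, IsMF (G0 N) (K - 12) g ∧ f = ModularForm.discriminant * g
  /-- `Δ E → 0` at `i∞`. -/
  tendsto_discriminant_smul :
    Tendsto (fun z : ℍ => ModularForm.discriminant z • E z) atImInfty (𝓝 0)

/-- A frame is perfect (relative to a normaliser `E`) if its matrix of conjugates is invertible
at every point of `ℍ` and, after normalisation, at `i∞`. -/
def Frame.PerfectFor {N : ℕ} [NeZero N] (fr : Frame N) (E : ℍ → Matrix (Q N) (Q N) ℂ) : Prop :=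
  (∀ z, (fr.Φ z).det ≠ 0) ∧
    ∃ L : Matrix (Q N) (Q N) ℂ, L.det ≠ 0 ∧
      Tendsto (fun z : ℍ => E z * fr.Φ z) atImInfty (𝓝 L)

end Fermat.Agent.S20
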