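import Fermat.Agent.S20.Normalizer
import Fermat.Agent.Lib.EllipticCount

set_option autoImplicit false

/-!
# S20 [P]: a free homogeneous basis of `M(Γ₀(N))` is a perfect frame

Given a cusp normaliser `E` and a homogeneous basis `F i ∈ M_{k i}(Γ₀(N))` (`i : Fin n`,
`n = [SL₂(ℤ) : Γ₀(N)]`) of `M(Γ₀(N))` over the level one ring which is pointwise independent,
the frame obtained by reindexing along a bijection `Q N ≃ Fin n` is perfect: its matrix of
conjugates is invertible on `ℍ` and, after normalisation, at `i∞`.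
-/

open UpperHalfPlane Filter ModularForm
open scoped MatrixGroups ModularForm Manifold Real Topology Matrix

namespace Fermat.Agent.S20

open Fermat.Agent.S23

namespace PerfectOfBasis

/-- A nice function tends to the constant term of its `q`-expansion at `i∞`. -/
lemma tendsto_of_nice {f : ℍ → ℂ} (hf : Nice f) :
    Tendsto f atImInfty (𝓝 ((qExpansion 1 f).coeff 0)) := by
  have h1 : (cuspFunction 1 f ∘ fun τ : ℍ ↦ Function.Periodic.qParam 1 τ : ℍ → ℂ) = f := by
    funext τ
    simpa using eq_cuspFunction τ one_ne_zero hf.per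
  have h2 : (qExpansion 1 f).coeff 0 = cuspFunction 1 f 0 := by
    simp [qExpansion_coeff]
  rw [h2]
  have := hf.analyticAt.continuousAt.tendsto.comp (qParam_tendsto_atImInfty one_pos)
  rwa [h1] at this

lemma isMF_E4 : IsMF 𝒮ℒ 4 (E₄ : ℍ → ℂ) := IsMF.coe E₄

lemma isMF_E6 : IsMF 𝒮ℒ 6 (E₆ : ℍ → ℂ) := IsMF.coe E₆

lemma tendsto_E4 : Tendsto (E₄ : ℍ → ℂ) atImInfty (𝓝 1) := by
  have := tendsto_of_nice isMF_E4.niceSL
  rwa [EisensteinSeries.E_qExpansion_coeff_zero _ ⟨2, rfl⟩] at this

lemma tendsto_E6 : Tendsto (E₆ : ℍ → ℂ) atImInfty (𝓝 1) := by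
  have := tendsto_of_nice isMF_E6.niceSL
  rwa [EisensteinSeries.E_qExpansion_coeff_zero _ ⟨3, rfl⟩] at this

lemma isMF_discriminant : IsMF 𝒮ℒ 12 (ModularForm.discriminant : ℍ → ℂ) :=
  (IsCF.coe CuspForm.discriminant).isMF

/-- Level one forms of every even weight `≥ 4` with value `1` at `i∞`. -/
lemma exists_levelOne_tendsto_one (m : ℤ) (hm : Even m) (h4 : 4 ≤ m) :
    ∃ a : ℍ → ℂ, IsMF 𝒮ℒ m a ∧ Tendsto a atImInfty (𝓝 1) := by
  obtain ⟨t, rfl⟩ := hm
  rcases Int.even_or_odd' t with ⟨s, rfl | rfl⟩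
  · refine ⟨(E₄ : ℍ → ℂ) ^ s.toNat, (isMF_E4.pow s.toNat).weight_congr ?_, ?_⟩
    · have : ((s.toNat : ℕ) : ℤ) = s := Int.toNat_of_nonneg (by omega)
      rw [this]; ring
    · have := tendsto_E4.pow s.toNat
      simp only [one_pow] at this
      exact this
  · refine ⟨(E₄ : ℍ → ℂ) ^ (s - 1).toNat * E₆,
      ((isMF_E4.pow (s - 1).toNat).mul isMF_E6).weight_congr ?_, ?_⟩
    · have : (((s - 1).toNat : ℕ) : ℤ) = s - 1 := Int.toNat_of_nonneg (by omega)
      rw [this]; ring
    · have := (tendsto_E4.pow (s - 1).toNat).mul tendsto_E6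
      simp only [one_pow, mul_one] at this
      exact this

/-- `Δ · b → 0` at `i∞` for a level one form `b`. -/
lemma tendsto_discriminant_mul {m : ℤ} {b : ℍ → ℂ} (hb : IsMF 𝒮ℒ m b) :
    Tendsto (fun z : ℍ => ModularForm.discriminant z * b z) atImInfty (𝓝 0) := by
  have h1 : ZeroAtFilter atImInfty (ModularForm.discriminant : ℍ → ℂ) :=
    ModularForm.discriminant_isZeroAtImInfty
  have h2 : BoundedAtFilter atImInfty b := isBoundedAtImInfty_of_isMF_SL hb
  exact h1.mul_boundedAtFilter h2

section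

variable {N : ℕ} [NeZero N] {E : ℍ → Matrix (Q N) (Q N) ℂ}

/-- The normalised matrix of conjugates of a frame converges at `i∞`. -/
theorem exists_tendsto (hE : IsCuspNormalizer N E) (fr : Frame N) :
    ∃ L : Matrix (Q N) (Q N) ℂ, Tendsto (fun z : ℍ => E z * fr.Φ z) atImInfty (𝓝 L) := by
  choose l hl using fun j => hE.exists_tendsto (fr.k j) (fr.F j) (fr.isMF j)
  refine ⟨Matrix.of fun q j => l j q, ?_⟩
  refine tendsto_pi_nhds.mpr fun q => tendsto_pi_nhds.mpr fun j => ?_
  exact (tendsto_pi_nhds.mp (hl j)) q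

end

end PerfectOfBasis

open PerfectOfBasis in
/-- **[P]** A pointwise independent homogeneous basis of `M(Γ₀(N))` over the level one ring,
indexed by `Fin n` with `n = [SL₂(ℤ) : Γ₀(N)]`, is (after reindexing) a perfect frame. -/
theorem exists_perfectFor_of_basis {N : ℕ} [NeZero N] {E : ℍ → Matrix (Q N) (Q N) ℂ}
    (hE : IsCuspNormalizer N E) {n : ℕ} (k : Fin n → ℤ) (F : Fin n → ℍ → ℂ)
    (hF : ∀ i, IsMF (G0 N) (k i) (F i))
    (hgen : ∀ (K : ℤ) (f : ℍ → ℂ), IsMF (G0 N) K f →
      ∃ a : Fin n → ℍ → ℂ, (∀ i, IsMF 𝒮ℒ (K - k i) (a i)) ∧ f = ∑ i, a i * F i)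
    (hind : ∀ (K : ℤ) (a : Fin n → ℍ → ℂ), (∀ i, IsMF 𝒮ℒ (K - k i) (a i)) →
      ∑ i, a i * F i = 0 → ∀ i, a i = 0)
    (hinv : ∀ (z : ℍ) (c : Fin n → ℂ),
      (∀ γ : SL(2, ℤ), ∑ i, c i * ((F i) ∣[k i] γ) z = 0) → c = 0)
    (hcard : n = (CongruenceSubgroup.Gamma0 N).index) :
    ∃ (e : Q N ≃ Fin n) (fr : Frame N), fr.PerfectFor E ∧ (∀ j, fr.k j = k (e j)) ∧
      (∀ j, fr.F j = F (e j)) := by
  classical
  have hcard' : Fintype.card (Q N) = n := by
    rw [hcard, Subgroup.index, Nat.card_eq_fintype_card]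
  let e : Q N ≃ Fin n := Fintype.equivFinOfCardEq hcard'
  let fr : Frame N := { k := fun j => k (e j), F := fun j => F (e j), isMF := fun j => hF (e j) }
  refine ⟨e, fr, ⟨?_, ?_⟩, fun _ => rfl, fun _ => rfl⟩
  · -- invertibility on `ℍ`
    intro z hz
    obtain ⟨c, hc0, hc⟩ := Matrix.exists_mulVec_eq_zero_iff.mpr hz
    apply hc0
    have h0 := hinv z (c ∘ e.symm) (by
      intro γ
      have := congrFun hc (QuotientGroup.mk γ⁻¹ : Q N)
      simp only [Matrix.mulVec, dotProduct, Frame.Φ_apply, Pi.zero_apply] at this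
      rw [← this, ← Equiv.sum_comp e]
      refine Finset.sum_congr rfl fun j _ => ?_
      rw [Function.comp, e.symm_apply_apply, slash_eq_vec (slInv_of_isMF (hF (e j))) γ]
      exact mul_comm _ _)
    funext j
    have := congrFun h0 (e j)
    simpa using this
  · -- invertibility at `i∞`
    obtain ⟨L, hL⟩ := exists_tendsto hE fr
    refine ⟨L, fun hdet => ?_, hL⟩
    obtain ⟨c, hc0, hLc⟩ := Matrix.exists_mulVec_eq_zero_iff.mpr hdet
    -- transport the kernel vector to `Fin n`
    set c' : Fin n → ℂ := c ∘ e.symm with hc'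
    have hc'0 : c' ≠ 0 := by
      intro h
      apply hc0
      funext j
      have := congrFun h (e j)
      simpa [hc'] using this
    have hsupp : (Finset.univ.filter fun i => c' i ≠ 0).Nonempty := by
      obtain ⟨i, hi⟩ := Function.ne_iff.mp hc'0
      exact ⟨i, by simpa using hi⟩
    obtain ⟨i₀, hi₀mem, hi₀max⟩ := Finset.exists_max_image _ k hsupp
    have hci₀ : c' i₀ ≠ 0 := by simpa using hi₀mem
    have heven : ∀ i, Even (k i) :=
      Fermat.Agent.Lib.EllipticCount.even_weight k F hF UpperHalfPlane.I (hinv UpperHalfPlane.I)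
    set K : ℤ := k i₀ + 4 with hK
    have hex : ∀ i, ∃ a : ℍ → ℂ, IsMF 𝒮ℒ (K - k i) a ∧
        (c' i ≠ 0 → Tendsto a atImInfty (𝓝 1)) := by
      intro i
      by_cases hci : c' i = 0
      · exact ⟨0, IsMF.zero, fun h => absurd hci h⟩
      · have hle : k i ≤ k i₀ := hi₀max i (by simp [hci])
        have hev : Even (K - k i) := by
          rw [hK]
          exact ((heven i₀).add (by decide : Even (4 : ℤ))).sub (heven i)
        obtain ⟨a, ha, hat⟩ := exists_levelOne_tendsto_one (K - k i) hev (by omega)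
        exact ⟨a, ha, fun _ => hat⟩
    choose hh hhMF hhT using hex
    set f : ℍ → ℂ := ∑ i, c' i • (hh i * F i) with hf_def
    have hSL : G0 N ≤ 𝒮ℒ := Subgroup.map_le_range _ _
    have hf : IsMF (G0 N) K f :=
      IsMF.sum _ fun i _ => IsMF.smul _
        ((((hhMF i).mono hSL).mul (hF i)).weight_congr (by ring))
    have hvec : ∀ (z : ℍ) (q : Q N),
        vec K f z q = ∑ i, c' i * (hh i z * vec (k i) (F i) z q) := by
      intro z q
      rw [hf_def, vec_sum]
      refine Finset.sum_congr rfl fun i _ => ?_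
      rw [vec_smul_const]
      have := vec_mul (N := N) (k₁ := K - k i) (k₂ := k i) (hh i) (F i)
        (slash_SL_of_isMF (hhMF i)) z q
      rw [show K - k i + k i = K by ring] at this
      rw [this]
    have hLqj : ∀ q j, Tendsto (fun z : ℍ => (E z * fr.Φ z) q j) atImInfty (𝓝 (L q j)) :=
      fun q j => tendsto_pi_nhds.mp (tendsto_pi_nhds.mp hL q) j
    have hlim : Tendsto (fun z : ℍ => E z *ᵥ vec K f z) atImInfty (𝓝 0) := by
      refine tendsto_pi_nhds.mpr fun q => ?_
      have hrw : ∀ z : ℍ, (E z *ᵥ vec K f z) q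
          = ∑ i, c' i * hh i z * (E z * fr.Φ z) q (e.symm i) := by
        intro z
        simp only [Matrix.mulVec, dotProduct, Matrix.mul_apply, hvec, Finset.mul_sum,
          Frame.Φ_apply]
        rw [Finset.sum_comm]
        refine Finset.sum_congr rfl fun i _ => Finset.sum_congr rfl fun q' _ => ?_
        simp only [fr, Equiv.apply_symm_apply]
        ring
      have hterm : ∀ i, Tendsto (fun z : ℍ => c' i * hh i z * (E z * fr.Φ z) q (e.symm i))
          atImInfty (𝓝 (L q (e.symm i) * c' i)) := by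
        intro i
        by_cases hci : c' i = 0
        · simp [hci]
        · have := ((tendsto_const_nhds (x := c' i)).mul (hhT i hci)).mul (hLqj q (e.symm i))
          simpa [mul_comm] using this
      have hsum := tendsto_finsetSum Finset.univ fun i _ => hterm i
      have hzero : ∑ i, L q (e.symm i) * c' i = (0 : Q N → ℂ) q := by
        have := congrFun hLc q
        simp only [Matrix.mulVec, dotProduct, Pi.zero_apply] at this
        rw [Pi.zero_apply, ← this, ← Equiv.sum_comp e]
        refine Finset.sum_congr rfl fun j _ => ?_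
        simp [hc']
      rw [← hzero]
      refine hsum.congr fun z => ?_
      rw [hrw]
    obtain ⟨g, hg, hfg⟩ := hE.div_discriminant K f hf hlim
    obtain ⟨b, hb, hgb⟩ := hgen (K - 12) g hg
    -- the relation `∑ (c' i • hh i - Δ * b i) * F i = 0`
    have hrel : ∑ i, (c' i • hh i - ModularForm.discriminant * b i) * F i = 0 := by
      have h1 : ∑ i, (c' i • hh i - ModularForm.discriminant * b i) * F i
          = f - ModularForm.discriminant * g := by
        rw [hf_def, hgb, Finset.mul_sum, ← Finset.sum_sub_distrib]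
        refine Finset.sum_congr rfl fun i _ => ?_
        rw [sub_mul, smul_mul_assoc, mul_assoc]
      rw [h1, hfg, sub_self]
    have hcoef : ∀ i, IsMF 𝒮ℒ (K - k i) (c' i • hh i - ModularForm.discriminant * b i) := by
      intro i
      refine ((hhMF i).smul (c' i)).sub ?_
      exact (isMF_discriminant.mul (hb i)).weight_congr (by ring)
    have hzero := hind K _ hcoef hrel i₀
    -- evaluate at `i∞`
    have h1 : Tendsto (fun z : ℍ => c' i₀ * hh i₀ z - ModularForm.discriminant z * b i₀ z)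
        atImInfty (𝓝 (c' i₀ * 1 - 0)) :=
      ((tendsto_const_nhds (x := c' i₀)).mul (hhT i₀ hci₀)).sub (tendsto_discriminant_mul (hb i₀))
    have h2 : (fun z : ℍ => c' i₀ * hh i₀ z - ModularForm.discriminant z * b i₀ z) = 0 := by
      funext z
      have := congrFun hzero z
      simpa using this
    rw [h2] at h1
    have h3 : Tendsto (0 : ℍ → ℂ) atImInfty (𝓝 0) := tendsto_const_nhds
    have h4 := tendsto_nhds_unique h3 h1
    apply hci₀
    simpa using h4.symm

end Fermat.Agent.S20
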