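import Fermat.Agent.S20.Holo

set_option autoImplicit false

/-!
# S20 package [I]: frame surgery

* `Frame.Good.ne_zero`, `Frame.Good.weight_nonneg`, `Frame.Good.weight_even`: the members of a
  good frame are nonzero modular forms, hence have even nonnegative weights.
* `Frame.update`, `Frame.update_weight`: replacing one member of a frame.
* `Frame.update_good` (swap lemma): if `D g = ∑ c_j h_j F_j` with `c_{j₀} ≠ 0`, `h_{j₀} ≠ 0`,
  replacing `F_{j₀}` by `g` keeps the frame good.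
* `split_kernel`: if `P A = A diag(ε)` and `A c = 0` then `A` kills each `ε`-isotypic part of `c`.
-/

open UpperHalfPlane Filter
open scoped MatrixGroups ModularForm Manifold Real Topology Matrix

namespace Fermat.Agent.S20

open Fermat.Agent.S23

section I

variable {N : ℕ} [NeZero N]

/-- If a member of a frame vanishes, the matrix of conjugates is singular everywhere. -/
theorem Swap.det_eq_zero_of_F_eq_zero (fr : Frame N) (j : Q N) (hj : fr.F j = 0) (z : ℍ) :
    (fr.Φ z).det = 0 := by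
  refine Matrix.det_eq_zero_of_column_eq_zero j fun q => ?_
  rw [Frame.Φ_apply, hj, vec_zero]

theorem Frame.Good.ne_zero {fr : Frame N} (h : fr.Good) (j : Q N) : fr.F j ≠ 0 := by
  intro hj
  obtain ⟨z, hz⟩ := h
  exact hz (Swap.det_eq_zero_of_F_eq_zero fr j hj z)

theorem Frame.Good.weight_nonneg {fr : Frame N} (h : fr.Good) (j : Q N) : 0 ≤ fr.k j := by
  by_contra hneg
  rw [not_le] at hneg
  obtain ⟨G, hG⟩ := fr.isMF j
  have hG0 : G = 0 := ModularForm.isZero_of_neg_weight hneg G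
  refine h.ne_zero j ?_
  rw [← hG, hG0]
  rfl

theorem Swap.neg_one_mem (N : ℕ) : (-1 : GL (Fin 2) ℝ) ∈ G0 N := by
  refine ⟨-1, ?_, ?_⟩
  · simp [CongruenceSubgroup.Gamma0_mem]
  · ext i j
    simp [Matrix.SpecialLinearGroup.mapGL]

theorem Frame.Good.weight_even {fr : Frame N} (h : fr.Good) (j : Q N) : Even (fr.k j) := by
  by_contra hodd
  rw [Int.not_even_iff_odd] at hodd
  obtain ⟨G, hG⟩ := fr.isMF j
  have hG0 : G = 0 := ModularForm.eq_zero_of_neg_one_mem (Swap.neg_one_mem N) hodd G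
  refine h.ne_zero j ?_
  rw [← hG, hG0]
  rfl

/-- Replace the `j₀`-th member of a frame. -/
noncomputable def Frame.update (fr : Frame N) (j₀ : Q N) (k' : ℤ) (g : ℍ → ℂ)
    (hg : IsMF (G0 N) k' g) : Frame N where
  k := Function.update fr.k j₀ k'
  F := Function.update fr.F j₀ g
  isMF := fun j => by
    by_cases h : j = j₀
    · subst h; simpa using hg
    · simpa [Function.update_of_ne h] using fr.isMF j

theorem Frame.update_weight (fr : Frame N) (j₀ : Q N) (k' : ℤ) (g : ℍ → ℂ)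
    (hg : IsMF (G0 N) k' g) : (fr.update j₀ k' g hg).weight = fr.weight - fr.k j₀ + k' := by
  unfold Frame.weight
  show ∑ j, Function.update fr.k j₀ k' j = ∑ j, fr.k j - fr.k j₀ + k'
  rw [Finset.sum_update_of_mem (Finset.mem_univ j₀)]
  have h2 : ∑ j, fr.k j = fr.k j₀ + ∑ j ∈ Finset.univ \ {j₀}, fr.k j := by
    rw [← Finset.sum_sdiff (Finset.singleton_subset_iff.mpr (Finset.mem_univ j₀))]
    simp [add_comm]
  rw [h2]
  ring

omit [NeZero N] in
/-- The matrix of conjugates of an updated frame. -/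
theorem Swap.update_Φ (fr : Frame N) (j₀ : Q N) (k' : ℤ) (g : ℍ → ℂ)
    (hg : IsMF (G0 N) k' g) (z : ℍ) :
    (fr.update j₀ k' g hg).Φ z = (fr.Φ z).updateCol j₀ (fun q => vec k' g z q) := by
  ext q j
  rw [Frame.Φ_apply, Matrix.updateCol_apply]
  by_cases hj : j = j₀
  · subst hj
    simp [Frame.update]
  · rw [if_neg hj, Frame.Φ_apply]
    simp [Frame.update, Function.update_of_ne hj]

/-- The conjugates of the new member in terms of the conjugates of the old ones. -/
theorem Swap.vec_relation (fr : Frame N) (K w : ℤ) (c : Q N → ℂ)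
    (h : Q N → ℍ → ℂ) (hh : ∀ j, IsMF 𝒮ℒ (K - fr.k j) (h j))
    (D g : ℍ → ℂ) (hDm : IsMF 𝒮ℒ w D)
    (hD : D * g = ∑ j, c j • (h j * fr.F j)) (z : ℍ) (q : Q N) :
    D z * vec (K - w) g z q = ∑ j, (c j * h j z) • fr.Φ z q j := by
  have h1 : vec (w + (K - w)) (D * g) z q = D z * vec (K - w) g z q :=
    vec_mul D g (slash_SL_of_isMF hDm) z q
  have h2 : vec (w + (K - w)) (D * g) z q = ∑ j, (c j * h j z) • fr.Φ z q j := by
    rw [hD, vec_sum]
    refine Finset.sum_congr rfl fun j _ => ?_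
    rw [vec_smul_const]
    have hK : w + (K - w) = (K - fr.k j) + fr.k j := by ring
    rw [hK, vec_mul (h j) (fr.F j) (slash_SL_of_isMF (hh j)) z q, Frame.Φ_apply, smul_eq_mul,
      mul_assoc]
  rw [← h1, h2]

/-- The determinant identity behind the swap lemma. -/
theorem Swap.det_relation (fr : Frame N) (j₀ : Q N) (K w : ℤ) (c : Q N → ℂ)
    (h : Q N → ℍ → ℂ) (hh : ∀ j, IsMF 𝒮ℒ (K - fr.k j) (h j))
    (D g : ℍ → ℂ) (hDm : IsMF 𝒮ℒ w D) (hg : IsMF (G0 N) (K - w) g)
    (hD : D * g = ∑ j, c j • (h j * fr.F j)) (z : ℍ) :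
    D z * ((fr.update j₀ (K - w) g hg).Φ z).det = (c j₀ * h j₀ z) * (fr.Φ z).det := by
  rw [Swap.update_Φ, ← Matrix.det_updateCol_smul]
  have h1 : (D z • fun q => vec (K - w) g z q) =
      fun q => ∑ j, (c j * h j z) • fr.Φ z q j := by
    funext q
    rw [Pi.smul_apply, smul_eq_mul]
    exact Swap.vec_relation fr K w c h hh D g hDm hD z q
  rw [h1, Matrix.det_updateCol_sum, smul_eq_mul]

/-- I1 (swap lemma): if `D g = ∑ c_j h_j F_j` (`D`, `h_j` of level one, weights matching) with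
`c_{j₀} ≠ 0`, `h_{j₀} ≠ 0`, then replacing `F_{j₀}` by `g` keeps the frame good. -/
theorem Frame.update_good (fr : Frame N) (hfr : fr.Good) (j₀ : Q N) (K w : ℤ) (c : Q N → ℂ)
    (hc : c j₀ ≠ 0) (h : Q N → ℍ → ℂ) (hh : ∀ j, IsMF 𝒮ℒ (K - fr.k j) (h j)) (hh0 : h j₀ ≠ 0)
    (D g : ℍ → ℂ) (hDm : IsMF 𝒮ℒ w D) (hg : IsMF (G0 N) (K - w) g)
    (hD : D * g = ∑ j, c j • (h j * fr.F j)) : (fr.update j₀ (K - w) g hg).Good := by
  by_contra hbad
  have hzero : ∀ z, ((fr.update j₀ (K - w) g hg).Φ z).det = 0 := by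
    intro z
    by_contra hz
    exact hbad ⟨z, hz⟩
  have hprod : h j₀ * (fun z => (fr.Φ z).det) = 0 := by
    funext z
    have h1 := Swap.det_relation fr j₀ K w c h hh D g hDm hg hD z
    rw [hzero z, mul_zero, mul_assoc] at h1
    have h2 := (mul_eq_zero.mp h1.symm).resolve_left hc
    simpa using h2
  have hdet : MDiff (fun z => (fr.Φ z).det) := mdiff_det _ fun q j => fr.mdiff_Φ q j
  rcases mdiff_mul_eq_zero (mdiff_of_isMF (hh j₀)) hdet hprod with h1 | h1
  · exact hh0 h1
  · obtain ⟨z, hz⟩ := hfr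
    exact hz (congrFun h1 z)

end I

/-- Powers of the diagonal matrix preserve the kernel. -/
theorem Swap.mulVec_pow_eq_zero {ι κ : Type} [Fintype ι] [Fintype κ] [DecidableEq ι]
    [DecidableEq κ] (A : Matrix κ ι ℂ) (P : Matrix κ κ ℂ) (ε : ι → ℂ)
    (h : P * A = A * Matrix.diagonal ε) (c : ι → ℂ) (hc : A *ᵥ c = 0) (n : ℕ) :
    A *ᵥ (fun j => ε j ^ n * c j) = 0 := by
  induction n with
  | zero => simpa using hc
  | succ n ih =>
    have h1 : (fun j => ε j ^ (n + 1) * c j) = Matrix.diagonal ε *ᵥ (fun j => ε j ^ n * c j) := by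
      funext j
      rw [Matrix.mulVec_diagonal]
      ring
    rw [h1, Matrix.mulVec_mulVec, ← h, ← Matrix.mulVec_mulVec, ih, Matrix.mulVec_zero]

/-- Polynomials in the diagonal matrix preserve the kernel. -/
theorem Swap.mulVec_eval_eq_zero {ι κ : Type} [Fintype ι] [Fintype κ] [DecidableEq ι]
    [DecidableEq κ] (A : Matrix κ ι ℂ) (P : Matrix κ κ ℂ) (ε : ι → ℂ)
    (h : P * A = A * Matrix.diagonal ε) (c : ι → ℂ) (hc : A *ᵥ c = 0) (p : Polynomial ℂ) :
    A *ᵥ (fun j => p.eval (ε j) * c j) = 0 := by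
  have h1 : (fun j => p.eval (ε j) * c j) =
      ∑ n ∈ Finset.range (p.natDegree + 1), p.coeff n • (fun j => ε j ^ n * c j) := by
    funext j
    rw [Finset.sum_apply, Polynomial.eval_eq_sum_range, Finset.sum_mul]
    refine Finset.sum_congr rfl fun n _ => ?_
    rw [Pi.smul_apply, smul_eq_mul, mul_assoc]
  rw [h1, Matrix.mulVec_sum]
  refine Finset.sum_eq_zero fun n _ => ?_
  rw [Matrix.mulVec_smul, Swap.mulVec_pow_eq_zero A P ε h c hc n, smul_zero]

/-- I2 (kernel splitting): if `P A = A diag(ε)` and `A c = 0`, then `A` kills each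
"`ε`-isotypic part" of `c`. (Lagrange interpolation in `P`.) -/
theorem split_kernel {ι κ : Type} [Fintype ι] [Fintype κ] [DecidableEq ι] [DecidableEq κ]
    (A : Matrix κ ι ℂ) (P : Matrix κ κ ℂ) (ε : ι → ℂ) (h : P * A = A * Matrix.diagonal ε)
    (c : ι → ℂ) (hc : A *ᵥ c = 0) (ω : ℂ) :
    A *ᵥ (fun j => if ε j = ω then c j else 0) = 0 := by
  classical
  set s : Finset ℂ := Finset.univ.image ε with hs
  set r : ℂ → ℂ := fun x => if x = ω then 1 else 0 with hr
  set p : Polynomial ℂ := Lagrange.interpolate s id r with hp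
  have hev : ∀ j, p.eval (ε j) = if ε j = ω then 1 else 0 := by
    intro j
    have hj : ε j ∈ s := Finset.mem_image_of_mem ε (Finset.mem_univ j)
    have := Lagrange.eval_interpolate_at_node (s := s) (v := id) r
      (Set.injOn_of_injective Function.injective_id) hj
    simpa [hp, hr] using this
  have h1 : (fun j => if ε j = ω then c j else 0) = fun j => p.eval (ε j) * c j := by
    funext j
    rw [hev j]
    split_ifs <;> simp
  rw [h1]
  exact Swap.mulVec_eval_eq_zero A P ε h c hc p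

end Fermat.Agent.S20
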