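import Fermat.Agent.S20.Defs
import Fermat.Agent.Lib.GradedFree
import Fermat.Prelude.Thm_Subgroup_IsArithmetic_exists_nat_mem_strictPeriods_conj

set_option autoImplicit false

/-!
# S20, package [LB2]: the weight two bound `dim M₂ + 1 ≤ dim S₂ + #cusps`

For `f ∈ M₂(Γ₀(N))` every conjugate `f ∣[2] g⁻¹` has a limit at `i∞` (its "value at the cusp").
The vector of these values, indexed by the coset space `Q N = SL(2,ℤ) ⧸ Γ₀(N)`, is invariant under
`T` (so it is a function on the set of `T`-orbits, i.e. of cusps) and its entries sum to zero,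
because the trace of `f` to level one is a modular form of weight two for `SL(2,ℤ)`, hence zero.
The kernel of the cusp value map consists of cusp forms.  Therefore
`dim M₂(Γ₀(N)) ≤ dim S₂(Γ₀(N)) + (#T-orbits − 1)`.
-/

open UpperHalfPlane Filter ModularForm
open scoped MatrixGroups ModularForm Manifold Real Topology Matrix

namespace Fermat.Agent.S20

open Fermat.Agent.S23

section limits

/-- A periodic holomorphic function on `ℍ` which is bounded at `i∞` tends to its value at
infinity. -/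
theorem tendsto_valueAtInfty {f : ℍ → ℂ} {h : ℝ} (hh : 0 < h)
    (hfper : Function.Periodic (f ∘ ofComplex) h) (hfhol : MDiff f)
    (hfbdd : IsBoundedAtImInfty f) : Tendsto f atImInfty (𝓝 (valueAtInfty f)) := by
  have han := analyticAt_cuspFunction_zero hh hfper hfhol hfbdd
  rw [← cuspFunction_apply_zero hh han hfper]
  have : (cuspFunction h f ∘ fun τ : ℍ ↦ Function.Periodic.qParam h τ : ℍ → ℂ) = f := by
    funext τ
    simpa using eq_cuspFunction τ hh.ne' hfper
  simpa [this] using han.continuousAt.tendsto.comp (qParam_tendsto_atImInfty hh)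

variable {N : ℕ} [NeZero N] {k : ℤ} {f : ℍ → ℂ}

/-- Every conjugate of a modular form for `Γ₀(N)` converges at `i∞`. -/
theorem tendsto_slash (hf : IsMF (G0 N) k f) (δ : SL(2, ℤ)) :
    Tendsto (f ∣[k] δ) atImInfty (𝓝 (valueAtInfty (f ∣[k] δ))) := by
  have hbdd : IsBoundedAtImInfty (f ∣[k] δ) := isBoundedAtImInfty_slash hf δ
  obtain ⟨F, rfl⟩ := hf
  obtain ⟨M, hMpos, hMper⟩ := Subgroup.IsArithmetic.exists_nat_mem_strictPeriods_conj (G0 N)
  have hper : Function.Periodic (((F : ℍ → ℂ) ∣[k] δ) ∘ ofComplex) (M : ℝ) := by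
    have h1 := hMper δ⁻¹
    rw [map_inv] at h1
    exact SlashInvariantFormClass.periodic_comp_ofComplex
      (SlashInvariantForm.translate F (Matrix.SpecialLinearGroup.mapGL ℝ δ)) h1
  have hhol : MDiff ((F : ℍ → ℂ) ∣[k] δ) := (ModularFormClass.holo F).slash _ _
  exact tendsto_valueAtInfty (by exact_mod_cast hMpos : (0 : ℝ) < M) hper hhol hbdd

/-- Every entry of the vector of conjugates converges at `i∞`. -/
theorem tendsto_vec (hf : IsMF (G0 N) k f) (q : Q N) :
    Tendsto (fun z => vec k f z q) atImInfty (𝓝 (valueAtInfty (fun z => vec k f z q))) :=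
  tendsto_slash hf _

end limits

section cuspVal

variable (N : ℕ) [NeZero N]

/-- The cusp value map in weight two: `cuspVal N f q` is the limit at `i∞` of the `q`-th
conjugate of `f`. -/
noncomputable def cuspVal : ModularForm (G0 N) 2 →ₗ[ℂ] (Q N → ℂ) where
  toFun f q := valueAtInfty (fun z => vec 2 (f : ℍ → ℂ) z q)
  map_add' f g := by
    funext q
    have h1 := tendsto_vec (IsMF.coe (f + g)) q
    have h2 := (tendsto_vec (IsMF.coe f) q).add (tendsto_vec (IsMF.coe g) q)
    refine tendsto_nhds_unique h1 (h2.congr fun z => ?_)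
    rw [FunLike.coe_add, vec_add]
  map_smul' c f := by
    funext q
    have h1 := tendsto_vec (IsMF.coe (c • f)) q
    have h2 := (tendsto_vec (IsMF.coe f) q).const_mul c
    refine tendsto_nhds_unique h1 (h2.congr fun z => ?_)
    rw [FunLike.coe_smul, vec_smul_const]

variable {N}

lemma cuspVal_apply (f : ModularForm (G0 N) 2) (q : Q N) :
    cuspVal N f q = valueAtInfty (fun z => vec 2 (f : ℍ → ℂ) z q) := rfl

lemma tendsto_cuspVal (f : ModularForm (G0 N) 2) (q : Q N) :
    Tendsto (fun z => vec 2 (f : ℍ → ℂ) z q) atImInfty (𝓝 (cuspVal N f q)) :=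
  tendsto_vec (IsMF.coe f) q

/-- A form in the kernel of the cusp value map is a cusp form. -/
lemma isCF_of_cuspVal_eq_zero (f : ModularForm (G0 N) 2) (h : cuspVal N f = 0) :
    IsCF (G0 N) 2 (f : ℍ → ℂ) := by
  have hinv : SlInv N 2 (f : ℍ → ℂ) := slInv_of_isMF (IsMF.coe f)
  refine isCF_of hinv (ModularFormClass.holo f) fun γ => ?_
  rw [slash_eq_vec hinv γ]
  have h1 := tendsto_cuspVal f (QuotientGroup.mk γ⁻¹ : Q N)
  rw [h] at h1
  exact h1

lemma ker_cuspVal_le :
    LinearMap.ker (cuspVal N) ≤ LinearMap.range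
      (CuspForm.toModularFormₗ : CuspForm (G0 N) 2 →ₗ[ℂ] ModularForm (G0 N) 2) := by
  intro f hf
  obtain ⟨F, hF⟩ := isCF_of_cuspVal_eq_zero f hf
  exact ⟨F, DFunLike.ext _ _ fun z => congrFun hF z⟩

end cuspVal


section invariance

variable {N : ℕ} [NeZero N]

lemma denom_T (z : ℍ) : denom (ModularGroup.T : SL(2, ℤ)) z = 1 := by
  rw [ModularGroup.denom_apply, ModularGroup.coe_T]
  simp

lemma tendsto_T_smul : Tendsto (fun z : ℍ => (ModularGroup.T : SL(2, ℤ)) • z) atImInfty atImInfty := by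
  rw [atImInfty, tendsto_comap_iff]
  have : (UpperHalfPlane.im ∘ fun z : ℍ => (ModularGroup.T : SL(2, ℤ)) • z) = UpperHalfPlane.im := by
    funext z
    show ((ModularGroup.T : SL(2, ℤ)) • z).im = z.im
    rw [UpperHalfPlane.modular_T_smul, UpperHalfPlane.vadd_im]
  rw [this]
  exact tendsto_comap

/-- The cusp values are invariant under `T`. -/
lemma cuspVal_T_inv_smul (f : ModularForm (G0 N) 2) (q : Q N) :
    cuspVal N f ((ModularGroup.T : SL(2, ℤ))⁻¹ • q) = cuspVal N f q := by
  have hinv : SlInv N 2 (f : ℍ → ℂ) := slInv_of_isMF (IsMF.coe f)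
  have h1 := (tendsto_cuspVal f q).comp tendsto_T_smul
  have h2 := tendsto_cuspVal f ((ModularGroup.T : SL(2, ℤ))⁻¹ • q)
  refine tendsto_nhds_unique h2 (h1.congr fun z => ?_)
  simp only [Function.comp_apply]
  rw [vec_smul hinv, denom_T, one_zpow, one_mul]

/-- The trace of a weight two form to level one vanishes. -/
lemma sum_vec_eq_zero (f : ModularForm (G0 N) 2) (z : ℍ) :
    ∑ q : Q N, vec 2 (f : ℍ → ℂ) z q = 0 := by
  have hinv : SlInv N 2 (f : ℍ → ℂ) := slInv_of_isMF (IsMF.coe f)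
  set tr : ℍ → ℂ := fun z => ∑ q : Q N, vec 2 (f : ℍ → ℂ) z q with htr
  have h1 : ∀ γ : SL(2, ℤ), tr ∣[(2 : ℤ)] γ = tr := by
    intro γ
    funext w
    rw [ModularForm.SL_slash_apply]
    simp only [htr]
    have : ∀ q : Q N, vec 2 (f : ℍ → ℂ) (γ • w) q =
        denom γ w ^ (2 : ℤ) * vec 2 (f : ℍ → ℂ) w (γ⁻¹ • q) := fun q => vec_smul hinv γ w q
    simp only [this]
    have hperm : ∑ q : Q N, vec 2 (f : ℍ → ℂ) w (γ⁻¹ • q) = ∑ q : Q N, vec 2 (f : ℍ → ℂ) w q :=
      Equiv.sum_comp (MulAction.toPerm γ⁻¹) (fun q => vec 2 (f : ℍ → ℂ) w q)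
    rw [← Finset.mul_sum, hperm, mul_comm, ← mul_assoc, ← zpow_add₀ (denom_ne_zero _ _)]
    simp
  have h2 : MDiff tr := by
    have : tr = ∑ q : Q N, fun z => vec 2 (f : ℍ → ℂ) z q := by
      funext w
      simp [htr]
    rw [this]
    exact MDifferentiable.sum fun q _ => mdiff_vec (ModularFormClass.holo f) q
  have h3 : IsBoundedAtImInfty tr := by
    have : Tendsto tr atImInfty (𝓝 (∑ q : Q N, cuspVal N f q)) :=
      tendsto_finsetSum _ fun q _ => tendsto_cuspVal f q
    exact this.isBigO_one ℝ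
  obtain ⟨G, hG⟩ := isMF_SL_of h1 h2 h3
  have hG0 : G = 0 := by
    have := ModularForm.levelOne_weight_two_rank_zero
    rw [rank_zero_iff_forall_zero] at this
    exact this G
  have : tr z = 0 := by rw [← hG, hG0]; rfl
  exact this

/-- The cusp values sum to zero. -/
lemma sum_cuspVal (f : ModularForm (G0 N) 2) : ∑ q : Q N, cuspVal N f q = 0 := by
  have h1 : Tendsto (fun z => ∑ q : Q N, vec 2 (f : ℍ → ℂ) z q) atImInfty
      (𝓝 (∑ q : Q N, cuspVal N f q)) :=
    tendsto_finsetSum _ fun q _ => tendsto_cuspVal f q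
  have h2 : Tendsto (fun z => ∑ q : Q N, vec 2 (f : ℍ → ℂ) z q) atImInfty (𝓝 0) := by
    simp only [sum_vec_eq_zero f]
    exact tendsto_const_nhds
  exact tendsto_nhds_unique h1 h2

end invariance


section count

variable (N : ℕ) [NeZero N]

/-- The space of `T`-invariant vectors on the coset space whose coordinates sum to zero. -/
def cuspSub : Submodule ℂ (Q N → ℂ) where
  carrier := {v | (∀ q, v ((ModularGroup.T : SL(2, ℤ))⁻¹ • q) = v q) ∧ ∑ q, v q = 0}
  add_mem' := by
    rintro v w ⟨hv1, hv2⟩ ⟨hw1, hw2⟩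
    refine ⟨fun q => by simp [hv1 q, hw1 q], ?_⟩
    simp [Finset.sum_add_distrib, hv2, hw2]
  zero_mem' := ⟨fun _ => rfl, by simp⟩
  smul_mem' := by
    rintro c v ⟨hv1, hv2⟩
    refine ⟨fun q => by simp [hv1 q], ?_⟩
    simp [← Finset.mul_sum, hv2]

variable {N}

lemma mem_cuspSub {v : Q N → ℂ} :
    v ∈ cuspSub N ↔ (∀ q, v ((ModularGroup.T : SL(2, ℤ))⁻¹ • q) = v q) ∧ ∑ q, v q = 0 := Iff.rfl

lemma range_cuspVal_le : LinearMap.range (cuspVal N) ≤ cuspSub N := by
  rintro _ ⟨f, rfl⟩
  exact ⟨cuspVal_T_inv_smul f, sum_cuspVal f⟩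

omit [NeZero N] in
/-- A `T⁻¹`-invariant vector is invariant under all powers of `T`. -/
lemma apply_zpow_smul {v : Q N → ℂ} (hv : ∀ q, v ((ModularGroup.T : SL(2, ℤ))⁻¹ • q) = v q)
    (n : ℤ) (q : Q N) : v ((ModularGroup.T : SL(2, ℤ)) ^ n • q) = v q := by
  have hT : ∀ q, v ((ModularGroup.T : SL(2, ℤ)) • q) = v q := fun q => by
    have := hv ((ModularGroup.T : SL(2, ℤ)) • q)
    rw [inv_smul_smul] at this
    exact this.symm
  induction n using Int.induction_on generalizing q with
  | zero => simp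
  | succ n ih => rw [zpow_add_one, mul_smul, ih, hT]
  | pred n ih => rw [zpow_sub_one, mul_smul, ih, hv]

variable (N)

/-- The dimension of `cuspSub N` is at most the number of `T`-orbits minus one. -/
lemma finrank_cuspSub_add_one_le :
    Module.finrank ℂ (cuspSub N) + 1 ≤
      Nat.card (MulAction.orbitRel.Quotient (Subgroup.zpowers (ModularGroup.T : SL(2, ℤ))) (Q N)) := by
  classical
  set Ω := MulAction.orbitRel.Quotient (Subgroup.zpowers (ModularGroup.T : SL(2, ℤ))) (Q N) with hΩ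
  have : Finite Ω := Quotient.finite _
  let _ : Fintype Ω := Fintype.ofFinite Ω
  let mk : Q N → Ω := Quotient.mk''
  let pb : (Ω → ℂ) →ₗ[ℂ] (Q N → ℂ) := LinearMap.funLeft ℂ ℂ mk
  let sumL : (Q N → ℂ) →ₗ[ℂ] ℂ := ∑ q : Q N, LinearMap.proj q
  let sg : (Ω → ℂ) →ₗ[ℂ] ℂ := sumL ∘ₗ pb
  have hsumL : ∀ v : Q N → ℂ, sumL v = ∑ q, v q := fun v => by
    simp [sumL, LinearMap.sum_apply]
  have hpb : ∀ (u : Ω → ℂ) (q : Q N), pb u q = u (mk q) := fun u q => rfl
  have hle : cuspSub N ≤ (LinearMap.ker sg).map pb := by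
    rintro v ⟨hv1, hv2⟩
    have hout : ∀ q : Q N, v (Quotient.out (mk q)) = v q := by
      intro q
      have h1 : mk (Quotient.out (mk q)) = mk q := Quotient.out_eq' _
      have h2 : (MulAction.orbitRel (Subgroup.zpowers (ModularGroup.T : SL(2, ℤ))) (Q N)).r
          (Quotient.out (mk q)) q := Quotient.exact' h1
      rw [MulAction.orbitRel_apply, MulAction.mem_orbit_iff] at h2
      obtain ⟨⟨g, hg⟩, hgq⟩ := h2
      obtain ⟨n, rfl⟩ := Subgroup.mem_zpowers_iff.mp hg
      rw [← hgq]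
      exact apply_zpow_smul hv1 n q
    have hveq : pb (fun ω => v (Quotient.out ω)) = v := by
      funext q
      rw [hpb]
      exact hout q
    refine ⟨fun ω => v (Quotient.out ω), ?_, hveq⟩
    show sg (fun ω => v (Quotient.out ω)) = 0
    show sumL (pb (fun ω => v (Quotient.out ω))) = 0
    rw [hveq, hsumL, hv2]
  have h1 : Module.finrank ℂ (cuspSub N) ≤ Module.finrank ℂ (LinearMap.ker sg) :=
    (Submodule.finrank_mono hle).trans (Submodule.finrank_map_le _ _)
  have h2 : Module.finrank ℂ (LinearMap.ker sg) + 1 = Fintype.card Ω := by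
    have h3 := LinearMap.finrank_range_add_finrank_ker sg
    rw [Module.finrank_fintype_fun_eq_card] at h3
    have hr : LinearMap.range sg = ⊤ := by
      rw [LinearMap.range_eq_top]
      intro c
      refine ⟨fun _ => c / (Fintype.card (Q N) : ℂ), ?_⟩
      show sumL (pb (fun _ => c / (Fintype.card (Q N) : ℂ))) = c
      rw [hsumL]
      simp only [hpb, Finset.sum_const, Finset.card_univ, nsmul_eq_mul]
      have hne : (Fintype.card (Q N) : ℂ) ≠ 0 := by
        have : Fintype.card (Q N) ≠ 0 := Fintype.card_ne_zero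
        exact_mod_cast this
      field_simp
    rw [hr, finrank_top, Module.finrank_self] at h3
    omega
  rw [Nat.card_eq_fintype_card]
  omega

/-- **[LB2]** `dim M₂(Γ₀(N)) + 1 ≤ dim S₂(Γ₀(N)) + #{T-orbits on SL(2,ℤ) ⧸ Γ₀(N)}`. -/
theorem finrank_weight_two_add_one_le :
    FiniteDimensional ℂ (ModularForm (G0 N) 2) ∧
    Module.finrank ℂ (ModularForm (G0 N) 2) + 1 ≤ Module.finrank ℂ (CuspForm (G0 N) 2) +
      Nat.card (MulAction.orbitRel.Quotient (Subgroup.zpowers ModularGroup.T) (Q N)) := by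
  have : FiniteDimensional ℂ (ModularForm (G0 N) 2) :=
    Fermat.Agent.Lib.GradedFree.finiteDimensional_G0 N 2
  refine ⟨inferInstance, ?_⟩
  have h1 := LinearMap.finrank_range_add_finrank_ker (cuspVal N)
  have h2 : Module.finrank ℂ (LinearMap.ker (cuspVal N)) ≤ Module.finrank ℂ (CuspForm (G0 N) 2) := by
    have := Submodule.finrank_mono (ker_cuspVal_le (N := N))
    rwa [LinearMap.finrank_range_of_inj CuspForm.toModularFormₗ_injective] at this
  have h3 : Module.finrank ℂ (LinearMap.range (cuspVal N)) ≤ Module.finrank ℂ (cuspSub N) :=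
    Submodule.finrank_mono (range_cuspVal_le (N := N))
  have h4 := finrank_cuspSub_add_one_le N
  omega

end count


end Fermat.Agent.S20
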