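import Fermat.Agent.S20.WeightTwo
import Fermat.Agent.Lib.GenusArith
import Fermat.Agent.S21.Bounds

set_option autoImplicit false

/-!
# S20: the lower bound `g ≤ dim S₂(Γ₀(N))` from the weight two bound [LB2]

This is a route to the lower bound which avoids the weight sum relation `Σ kᵢ ≥ 6 (ψ − c)`
(asymptotics of `det Φ` at `i∞`).  With `n_j := #{i | k i = j}` for the weights
`k i ∈ {0, 2, …, 10}` of a homogeneous basis:

* the elliptic counts give `n₂ + n₁₀ = n − #{4 ∣ k} − #{6 ∣ k} + n₀ = 2 g − 2 + c + n₀`;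
* `n₂ ≤ dim M₂ ≤ dim S₂ + c − 1 ≤ g + c − 1` by [LB2] and the upper bound `dim S₂ ≤ g`;
* hence `n₁₀ ≥ g − 1 + n₀ ≥ g`, and `n₁₀ ≤ dim S₂` finishes.
-/

open UpperHalfPlane
open scoped MatrixGroups ModularForm Manifold

namespace Fermat.Agent.S20

open Matrix CongruenceSubgroup ModularGroup Fermat.Agent.S23 Fermat.Agent.Lib.GenusArith

/-- The pointwise identity behind `n₂ + n₁₀ = n − #{4 ∣ k} − #{6 ∣ k} + n₀`. -/
theorem pointwise_two_ten {k : ℤ} (heven : Even k) (h0 : 0 ≤ k) (h10 : k ≤ 10) :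
    ((if k = 2 then 1 else 0) + (if k = 10 then 1 else 0) : ℤ) =
      1 - (if (4 : ℤ) ∣ k then 1 else 0) - (if (6 : ℤ) ∣ k then 1 else 0)
        + (if k = 0 then 1 else 0) := by
  obtain ⟨m, hm⟩ := heven
  have hm' : m = 0 ∨ m = 1 ∨ m = 2 ∨ m = 3 ∨ m = 4 ∨ m = 5 := by omega
  rcases hm' with rfl | rfl | rfl | rfl | rfl | rfl <;> subst hm <;> norm_num

/-- Counting identity: `n₂ + n₁₀ + #{4 ∣ k} + #{6 ∣ k} = n + n₀`. -/
theorem card_two_add_card_ten {n : ℕ} (k : Fin n → ℤ)
    (heven : ∀ i, Even (k i)) (h0le : ∀ i, 0 ≤ k i) (hle : ∀ i, k i ≤ 10) :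
    (Nat.card {i // k i = 2} : ℤ) + (Nat.card {i // k i = 10} : ℤ)
        + (Nat.card {i // (4 : ℤ) ∣ k i} : ℤ) + (Nat.card {i // (6 : ℤ) ∣ k i} : ℤ)
      = (n : ℤ) + (Nat.card {i // k i = 0} : ℤ) := by
  classical
  have hsum : ∑ i : Fin n, ((if k i = 2 then 1 else 0) + (if k i = 10 then 1 else 0) : ℤ) =
      ∑ i : Fin n, ((1 : ℤ) - (if (4 : ℤ) ∣ k i then 1 else 0) - (if (6 : ℤ) ∣ k i then 1 else 0)
        + (if k i = 0 then 1 else 0)) :=
    Finset.sum_congr rfl fun i _ => pointwise_two_ten (heven i) (h0le i) (hle i)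
  rw [natCard_subtype_eq_sum (fun i => k i = 2), natCard_subtype_eq_sum (fun i => k i = 10),
    natCard_subtype_eq_sum (fun i => (4 : ℤ) ∣ k i), natCard_subtype_eq_sum (fun i => (6 : ℤ) ∣ k i),
    natCard_subtype_eq_sum (fun i => k i = 0)]
  simp only [Finset.sum_add_distrib, Finset.sum_sub_distrib, Finset.sum_const, Finset.card_univ,
    Fintype.card_fin, nsmul_eq_mul, mul_one] at hsum
  linarith

/-- **Lower bound via [LB2].**  `g(X₀(N)) ≤ dim S₂(Γ₀(N))` from: the weights `k i ∈ {0, …, 10}`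
of a homogeneous basis (even, at least one of weight `0`), the elliptic class counts,
`#{i | k i = 2} ≤ dim M₂` and `#{i | k i = 10} ≤ dim S₂`.  No weight sum relation is needed:
it is replaced by the weight two bound `finrank_weight_two_add_one_le` and the upper bound
`dim S₂ ≤ g` (Eichler–Shimura injectivity). -/
theorem genusFormula_le_finrank_of_weightTwo (N : ℕ) [NeZero N] {n : ℕ} (k : Fin n → ℤ)
    (heven : ∀ i, Even (k i)) (h0le : ∀ i, 0 ≤ k i) (hle : ∀ i, k i ≤ 10)
    (hzero : 1 ≤ Nat.card {i // k i = 0})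
    (hcard : n = (Gamma0 N).index)
    (hS : 2 * Nat.card {i // (4 : ℤ) ∣ k i}
      = n + Nat.card (MulAction.fixedBy (SL(2, ℤ) ⧸ Gamma0 N) S))
    (hST : 3 * Nat.card {i // (6 : ℤ) ∣ k i}
      = n + 2 * Nat.card (MulAction.fixedBy (SL(2, ℤ) ⧸ Gamma0 N) (S * T)))
    (hM2 : Nat.card {i // k i = 2} ≤ Module.finrank ℂ (ModularForm (Gamma0 N) 2))
    (hdim : Nat.card {i // k i = 10} ≤ Module.finrank ℂ (CuspForm (Gamma0 N) 2)) :
    ModularCurve.genusFormula N ≤ (Module.finrank ℂ (CuspForm (Gamma0 N) 2) : ℚ) := by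
  have hLB := (finrank_weight_two_add_one_le N).2
  have hUB := (Fermat.Agent.S21.finrank_cuspForm_le N).2
  have hcount := card_two_add_card_ten k heven h0le hle
  rw [Fermat.Agent.Lib.Gamma0Count.card_fixedBy_S] at hS
  rw [Fermat.Agent.Lib.Gamma0Count.card_fixedBy_ST] at hST
  rw [Fermat.Agent.Lib.Gamma0Count.index_Gamma0 N (NeZero.ne N)] at hcard
  have hc : Nat.card (MulAction.orbitRel.Quotient (Subgroup.zpowers ModularGroup.T) (Q N))
      = ModularCurve.cuspCount N := Fermat.Agent.Lib.Gamma0Count.card_orbits_T N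
  rw [hc] at hLB
  unfold ModularCurve.genusFormula at hUB ⊢
  have hS' : (2 : ℚ) * (Nat.card {i // (4 : ℤ) ∣ k i} : ℚ) = n + ModularCurve.nuTwo N := by
    exact_mod_cast hS
  have hST' : (3 : ℚ) * (Nat.card {i // (6 : ℤ) ∣ k i} : ℚ) = n + 2 * ModularCurve.nuThree N := by
    exact_mod_cast hST
  have hcard' : (n : ℚ) = ModularCurve.dedekindPsi N := by exact_mod_cast hcard
  have hcount' : (Nat.card {i // k i = 2} : ℚ) + (Nat.card {i // k i = 10} : ℚ)
        + (Nat.card {i // (4 : ℤ) ∣ k i} : ℚ) + (Nat.card {i // (6 : ℤ) ∣ k i} : ℚ)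
      = (n : ℚ) + (Nat.card {i // k i = 0} : ℚ) := by exact_mod_cast hcount
  have hzero' : (1 : ℚ) ≤ (Nat.card {i // k i = 0} : ℚ) := by exact_mod_cast hzero
  have hM2' : (Nat.card {i // k i = 2} : ℚ) ≤ (Module.finrank ℂ (ModularForm (Gamma0 N) 2) : ℚ) := by
    exact_mod_cast hM2
  have hdim' : (Nat.card {i // k i = 10} : ℚ) ≤ (Module.finrank ℂ (CuspForm (Gamma0 N) 2) : ℚ) := by
    exact_mod_cast hdim
  have hLB' : (Module.finrank ℂ (ModularForm (Gamma0 N) 2) : ℚ) + 1
      ≤ (Module.finrank ℂ (CuspForm (Gamma0 N) 2) : ℚ) + ModularCurve.cuspCount N := by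
    exact_mod_cast hLB
  linarith

/-- In a family of forms which is independent over the level one ring, the members of weight
two are `ℂ`-linearly independent: `#{i | k i = 2} ≤ dim M₂(Γ₀(N))`. -/
theorem card_weight_two_le_finrank (N : ℕ) [NeZero N] {n : ℕ} (k : Fin n → ℤ)
    (F : Fin n → ℍ → ℂ) (hF : ∀ i, IsMF (G0 N) (k i) (F i))
    (hind : ∀ (K : ℤ) (a : Fin n → ℍ → ℂ), (∀ i, IsMF 𝒮ℒ (K - k i) (a i)) →
      ∑ i, a i * F i = 0 → ∀ i, a i = 0) :
    Nat.card {i // k i = 2} ≤ Module.finrank ℂ (ModularForm (G0 N) 2) := by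
  classical
  have : FiniteDimensional ℂ (ModularForm (G0 N) 2) := (finrank_weight_two_add_one_le N).1
  have hF2 : ∀ i : {i // k i = 2}, ∃ G : ModularForm (G0 N) 2, (G : ℍ → ℂ) = F i :=
    fun i => (hF i).weight_congr i.2
  choose G hG using hF2
  have hli : LinearIndependent ℂ G := by
    rw [Fintype.linearIndependent_iff]
    intro c hc j
    let a : Fin n → ℍ → ℂ := fun i => if h : k i = 2 then (fun _ => c ⟨i, h⟩) else 0
    have ha : ∀ i, IsMF 𝒮ℒ (2 - k i) (a i) := by
      intro i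
      by_cases h : k i = 2
      · simp only [a, dif_pos h]
        exact (IsMF.const (c ⟨i, h⟩)).weight_congr (by rw [h]; ring)
      · simp only [a, dif_neg h]
        exact IsMF.zero
    have hsum : ∑ i, a i * F i = 0 := by
      funext z
      have h1 := congrArg (fun f : ModularForm (G0 N) 2 =>
        Fermat.Agent.Lib.GradedFree.coeLin (G0 N) 2 f z) hc
      simp only [map_sum, map_smul, Finset.sum_apply, Pi.smul_apply, smul_eq_mul] at h1
      have h2 : ∀ i : {i // k i = 2},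
          Fermat.Agent.Lib.GradedFree.coeLin (G0 N) 2 (G i) z = F i z := fun i =>
        congrFun (hG i) z
      simp only [h2] at h1
      rw [Finset.sum_apply, Pi.zero_apply]
      have h3 : ∑ i, (a i * F i) z = ∑ i ∈ Finset.univ.filter (fun i => k i = 2), (a i * F i) z := by
        refine (Finset.sum_subset (Finset.filter_subset _ _) fun i _ hi => ?_).symm
        have hk : ¬ k i = 2 := by simpa using hi
        simp [a, dif_neg hk]
      rw [h3, Finset.sum_subtype (Finset.univ.filter (fun i => k i = 2)) (p := fun i => k i = 2)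
        (fun i => by simp) (fun i => (a i * F i) z)]
      rw [← show (∑ i : {i // k i = 2}, c i * F i z) = 0 from by simpa using h1]
      refine Finset.sum_congr rfl fun i _ => ?_
      simp [a, dif_pos i.2]
    have h4 := hind 2 a ha hsum j
    have h5 : a j = fun _ => c j := by simp [a, dif_pos j.2]
    rw [h5] at h4
    exact congrFun h4 UpperHalfPlane.I
  have h6 := hli.fintype_card_le_finrank
  rwa [Nat.card_eq_fintype_card]


end Fermat.Agent.S20
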